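import Fermat.Agent.Corollaries.Stick.Herbrand

/-!
# The minus part of the class group of `ℚ(ζ_p)`

If `p` does not divide the numerators of the Bernoulli numbers `B_2, B_4, …, B_{p-3}`, then the
number of the ideal classes `C` of `ℚ(ζ_p)` with `C̄ = C⁻¹` is prime to `p`.
-/

set_option autoImplicit false

noncomputable section

namespace Fermat.Agent.Cor.Stick

open NumberField Finset Fermat.Agent.Cor.Cat

universe u

section Cyclo

variable {p : ℕ} [hp : Fact p.Prime] {K : Type u} [Field K] [NumberField K] {ζ : K}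

theorem pow_eq_pow_of_cast {G : Type*} [Group G] {x : G} (hx : x ^ p = 1) {a b : ℕ}
    (h : (a : ZMod p) = b) : x ^ a = x ^ b := by
  rw [ZMod.natCast_eq_natCast_iff] at h
  exact pow_eq_pow_iff_modEq.mpr (h.of_dvd (orderOf_dvd_of_pow_eq_one hx))

/-- The projection (up to sign) to the `ω ^ i`-part. -/
def eig (hζ : IsPrimitiveRoot ζ p) (i : ℕ) (C : ClassGroup (𝓞 K)) : ClassGroup (𝓞 K) :=
  ∏ σ : K ≃ₐ[ℚ] K, gal σ C ^ (expo hζ σ⁻¹ ^ i)

omit hp in
theorem gal_pow_eq_one {C : ClassGroup (𝓞 K)} (hCp : C ^ p = 1) (σ : K ≃ₐ[ℚ] K) :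
    gal σ C ^ p = 1 := by rw [← map_pow, hCp, map_one]

theorem eig_pow (hζ : IsPrimitiveRoot ζ p) (i : ℕ) {C : ClassGroup (𝓞 K)} (hCp : C ^ p = 1) :
    eig hζ i C ^ p = 1 := by
  rw [eig, ← Finset.prod_pow]
  refine Finset.prod_eq_one fun σ _ => ?_
  rw [← pow_mul, mul_comm, pow_mul, gal_pow_eq_one hCp, one_pow]

theorem gal_eig (hζ : IsPrimitiveRoot ζ p) (i : ℕ) {C : ClassGroup (𝓞 K)} (hCp : C ^ p = 1)
    (τ : K ≃ₐ[ℚ] K) : gal τ (eig hζ i C) = eig hζ i C ^ (expo hζ τ ^ i) := by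
  rw [eig, map_prod, ← Finset.prod_pow]
  refine Fintype.prod_equiv (Equiv.mulLeft τ) _ _ fun σ => ?_
  rw [Equiv.coe_mulLeft, map_pow, ← gal_mul, ← pow_mul]
  refine pow_eq_pow_of_cast (gal_pow_eq_one hCp _) ?_
  push_cast
  rw [← mul_pow]
  congr 1
  rw [natCast_expo, natCast_expo, natCast_expo, ← Units.val_mul, ← map_mul]
  congr 3
  group

variable [hcyc : IsCyclotomicExtension {p} ℚ K]

theorem prod_eig (hζ : IsPrimitiveRoot ζ p) {C : ClassGroup (𝓞 K)} (hCp : C ^ p = 1) :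
    ∏ i ∈ range (p - 1), eig hζ i C = C ^ (p - 1) := by
  classical
  simp only [eig]
  rw [Finset.prod_comm]
  simp_rw [Finset.prod_pow_eq_pow_sum]
  rw [← Finset.mul_prod_erase univ _ (Finset.mem_univ (1 : K ≃ₐ[ℚ] K))]
  rw [Finset.prod_eq_one (s := univ.erase (1 : K ≃ₐ[ℚ] K)), mul_one]
  · rw [gal_one, inv_one, expo_one]
    simp
  · intro σ hσ
    rw [mem_erase] at hσ
    have h0 : (expo hζ σ⁻¹ : ZMod p) ≠ 0 := by
      rw [natCast_expo]
      exact (hζ.autToPow ℚ σ⁻¹).ne_zero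
    have h1 : (expo hζ σ⁻¹ : ZMod p) ≠ 1 := by
      intro h
      rw [natCast_expo, Units.val_eq_one, map_inv, inv_eq_one] at h
      exact hσ.1 (IsPrimitiveRoot.autToPow_injective ℚ hζ (h.trans (map_one _).symm))
    have h2 : ((∑ i ∈ range (p - 1), expo hζ σ⁻¹ ^ i : ℕ) : ZMod p) = ((0 : ℕ) : ZMod p) := by
      push_cast
      have h3 := mul_neg_geom_sum (expo hζ σ⁻¹ : ZMod p) (p - 1)
      rw [ZMod.pow_card_sub_one_eq_one h0, sub_self] at h3
      exact (mul_eq_zero.mp h3).resolve_left (sub_ne_zero_of_ne h1.symm)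
    rw [pow_eq_pow_of_cast (gal_pow_eq_one hCp σ) h2, pow_zero]

/-- There is an automorphism with `σ ζ = ζ⁻¹`. -/
theorem exists_conj (hζ : IsPrimitiveRoot ζ p) : ∃ J : K ≃ₐ[ℚ] K, J ζ = ζ⁻¹ ∧
    (expo hζ J : ZMod p) = -1 := by
  classical
  have h1 := sum_expo_inv hζ (fun a => if a = p - 1 then 1 else 0)
  have h2 : p - 1 ∈ (range p).erase 0 := by
    have := hp.out.two_le
    rw [mem_erase, mem_range]
    omega
  rw [Finset.sum_ite_eq' , if_pos h2] at h1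
  obtain ⟨σ, -, hσ⟩ := Finset.exists_ne_zero_of_sum_ne_zero (by rw [h1]; exact one_ne_zero)
  have h3 : expo hζ σ⁻¹ = p - 1 := by
    by_contra h
    exact hσ (if_neg h)
  refine ⟨σ⁻¹, ?_, ?_⟩
  · rw [← pow_expo hζ σ⁻¹, h3]
    refine eq_inv_of_mul_eq_one_left ?_
    rw [← pow_succ, Nat.sub_add_cancel hp.out.one_lt.le, hζ.pow_eq_one]
  · rw [h3, Nat.cast_sub hp.out.one_lt.le, ZMod.natCast_self, Nat.cast_one, zero_sub]

theorem mul_comm_gal (hζ : IsPrimitiveRoot ζ p) (σ τ : K ≃ₐ[ℚ] K) : σ * τ = τ * σ := by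
  apply IsPrimitiveRoot.autToPow_injective ℚ hζ
  rw [map_mul, map_mul, mul_comm]

theorem eig_even (hp2 : p ≠ 2) (hζ : IsPrimitiveRoot ζ p) {C : ClassGroup (𝓞 K)}
    (hCp : C ^ p = 1) {J : K ≃ₐ[ℚ] K} (hJ : (expo hζ J : ZMod p) = -1) (hC : gal J C = C⁻¹)
    {i : ℕ} (hi : Even i) : eig hζ i C = 1 := by
  have h1 : gal J (eig hζ i C) = eig hζ i C := by
    rw [gal_eig hζ i hCp]
    conv_rhs => rw [← pow_one (eig hζ i C)]
    refine pow_eq_pow_of_cast (eig_pow hζ i hCp) ?_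
    push_cast
    rw [hJ, hi.neg_one_pow]
  have h2 : gal J (eig hζ i C) = (eig hζ i C)⁻¹ := by
    rw [eig, map_prod, ← Finset.prod_inv_distrib]
    refine Finset.prod_congr rfl fun σ _ => ?_
    rw [map_pow, ← gal_mul, mul_comm_gal hζ J σ, gal_mul, hC, map_inv, inv_pow]
  rw [h1] at h2
  have h3 : eig hζ i C ^ 2 = 1 := by
    rw [sq]
    nth_rewrite 1 [h2]
    exact inv_mul_cancel _
  have h4 := orderOf_dvd_of_pow_eq_one h3
  have h5 := orderOf_dvd_of_pow_eq_one (eig_pow hζ i hCp)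
  have h6 : Nat.Coprime 2 p := (Nat.coprime_primes Nat.prime_two hp.out).mpr (Ne.symm hp2)
  exact orderOf_eq_one_iff.mp (Nat.eq_one_of_dvd_coprimes h6 h4 h5)

/-- If `p` does not divide the numerators of `B_2, B_4, …, B_{p-3}`, then a class `C` of order
dividing `p` with `C̄ = C⁻¹` is trivial. -/
theorem eq_one_of_not_dvd (hp2 : p ≠ 2) (hζ : IsPrimitiveRoot ζ p)
    (hreg : ∀ k : ℕ, Even k → 2 ≤ k → k + 3 ≤ p → ¬ (p : ℤ) ∣ (bernoulli k).num)
    {C : ClassGroup (𝓞 K)} (hCp : C ^ p = 1) {J : K ≃ₐ[ℚ] K} (hJζ : J ζ = ζ⁻¹)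
    (hC : gal J C = C⁻¹) : C = 1 := by
  have hpo : p % 2 = 1 := (hp.out.eq_two_or_odd).resolve_left hp2
  have hJ : (expo hζ J : ZMod p) = -1 := by
    obtain ⟨J', hJ', hJ'e⟩ := exists_conj hζ
    have h1 : expo hζ J = expo hζ J' := by
      refine hζ.pow_inj (expo_lt hζ J) (expo_lt hζ J') ?_
      rw [pow_expo, pow_expo, hJζ, hJ']
    rw [h1, hJ'e]
  have h1 : ∀ i ∈ range (p - 1), eig hζ i C = 1 := by
    intro i hi
    rw [mem_range] at hi
    rcases Nat.even_or_odd i with he | ho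
    · exact eig_even hp2 hζ hCp hJ hC he
    rcases eq_or_ne i 1 with rfl | hi1
    · refine eq_one_of_eigen_one hp2 hζ (eig_pow hζ 1 hCp) fun σ => ?_
      rw [gal_eig hζ 1 hCp, pow_one]
    · by_contra hne
      have hi3 : 3 ≤ i := by
        obtain ⟨j, rfl⟩ := ho
        omega
      have h2 := herbrand hζ hi3 (by omega) hne (eig_pow hζ i hCp) (gal_eig hζ i hCp)
      refine hreg (p - i) ?_ (by omega) (by omega) h2
      obtain ⟨j, rfl⟩ := ho
      exact ⟨(p - (2 * j + 1)) / 2, by omega⟩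
  have h2 := prod_eig hζ hCp
  rw [Finset.prod_eq_one h1] at h2
  have h3 : C ^ p = C := by
    conv_lhs => rw [← Nat.sub_add_cancel hp.out.one_lt.le, pow_succ, ← h2, one_mul]
  rw [← h3, hCp]

/-- The subgroup of the ideal classes with `C̄ = C⁻¹`. -/
def minus (J : K ≃ₐ[ℚ] K) : Subgroup (ClassGroup (𝓞 K)) where
  carrier := {C | gal J C = C⁻¹}
  one_mem' := by simp
  mul_mem' := by
    intro a b ha hb
    rw [Set.mem_ofPred_eq] at ha hb ⊢
    rw [map_mul, ha, hb, mul_inv]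
  inv_mem' := by
    intro a ha
    rw [Set.mem_ofPred_eq] at ha ⊢
    rw [map_inv, ha]

omit hp hcyc in
theorem mem_minus {J : K ≃ₐ[ℚ] K} {C : ClassGroup (𝓞 K)} : C ∈ minus J ↔ gal J C = C⁻¹ := Iff.rfl

/-- **If `p` does not divide the numerators of the Bernoulli numbers `B_2, B_4, …, B_{p-3}`, then
`p` does not divide the number of the ideal classes `C` of `ℚ(ζ_p)` with `C̄ = C⁻¹`.** -/
theorem not_dvd_card_minus (hp2 : p ≠ 2) (hζ : IsPrimitiveRoot ζ p)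
    (hreg : ∀ k : ℕ, Even k → 2 ≤ k → k + 3 ≤ p → ¬ (p : ℤ) ∣ (bernoulli k).num)
    {J : K ≃ₐ[ℚ] K} (hJζ : J ζ = ζ⁻¹) : ¬ p ∣ Nat.card (minus J) := by
  intro h
  obtain ⟨C, hC⟩ := exists_prime_orderOf_dvd_card' p h
  have h1 : (C : ClassGroup (𝓞 K)) ^ p = 1 := by
    rw [← Subgroup.coe_pow, ← hC, pow_orderOf_eq_one, Subgroup.coe_one]
  have h2 := eq_one_of_not_dvd hp2 hζ hreg h1 hJζ C.2
  have h3 : C = 1 := Subtype.ext h2
  rw [h3, orderOf_one] at hC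
  exact hp.out.one_lt.ne hC

end Cyclo

end Fermat.Agent.Cor.Stick
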