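import Fermat.Agent.Corollaries.Stick.Minus

/-!
# The relative class number of `ℚ(ζ_p)`

If `p` does not divide the numerators of the Bernoulli numbers `B_2, B_4, …, B_{p-3}`, then `p`
does not divide the relative class number of `ℚ(ζ_p)` (without the class number formula).
-/

set_option autoImplicit false

noncomputable section

namespace Fermat.Agent.Cor.Stick

open NumberField Finset Fermat.Agent.Cor.Cat
open scoped nonZeroDivisors

universe u v

section Cyclo

variable {p : ℕ} [hp : Fact p.Prime] {K : Type u} [Field K] [NumberField K]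
  [hcyc : IsCyclotomicExtension {p} ℚ K] {ζ : K} {F : Type v} [Field F] [NumberField F]
  [Algebra F K]

omit hcyc in
theorem finrank_ringOfIntegers : Module.finrank (𝓞 F) (𝓞 K) = Module.finrank F K :=
  (IsFractionRing.finrank_eq (𝓞 F) F (𝓞 K) K).symm

/-- `C C̄` comes from the real subfield. -/
theorem mul_gal_mem_range (hζ : IsPrimitiveRoot ζ p) (h2 : Module.finrank F K = 2)
    {J : K ≃ₐ[ℚ] K} (hJ1 : J ≠ 1) (hJF : ∀ x : F, J (algebraMap F K x) = algebraMap F K x)
    (C : ClassGroup (𝓞 K)) : C * gal J C ∈ (ClassGroup.extendedHom (𝓞 F) (𝓞 K)).range := by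
  obtain ⟨P, rfl, hPn, hPp⟩ := exists_deg_one_in_class C p
  set Q : Ideal (𝓞 K) := (P.1 : Ideal (𝓞 K)) with hQ
  have hP : Q.IsPrime := Ideal.isPrime_of_prime P.2
  have hP0 : Q ≠ ⊥ := fun h => hPn.ne_zero (by rw [h, Ideal.absNorm_bot])
  have hmax : Q.IsMaximal := hP.isMaximal hP0
  -- the Galois conjugates of `Q` are different
  have hcard : Nat.card (𝓞 K ⧸ Q) = Ideal.absNorm Q := by
    rw [Ideal.absNorm_apply, Submodule.cardQuot_apply]
  have hfin : Finite (𝓞 K ⧸ Q) := Nat.finite_of_card_ne_zero (hcard ▸ hPn.ne_zero)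
  have hne : Q ≠ Q.map (act J) := by
    intro h
    let _ : Fintype (𝓞 K ⧸ Q) := Fintype.ofFinite _
    let _ : Field (𝓞 K ⧸ Q) := Ideal.Quotient.field _
    have hr : IsPrimitiveRoot ((Ideal.Quotient.mk Q) hζ.toInteger) p :=
      isPrimitiveRoot_apply hζ (by rw [← Nat.card_eq_fintype_card, hcard]; exact hPn)
        (by rw [← Nat.card_eq_fintype_card, hcard]; exact hPp.ne')
    have h1 : Q.map (act (1 : K ≃ₐ[ℚ] K)) = Q.map (act J) := by
      rw [← h]
      exact Ideal.map_id Q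
    exact hJ1 (map_act_injective hζ hPn hr (fun x => Ideal.Quotient.eq_zero_iff_mem) h1).symm
  -- the prime below
  set 𝔭 : Ideal (𝓞 F) := Q.under (𝓞 F) with h𝔭
  have hlo : Q.LiesOver 𝔭 := ⟨rfl⟩
  have h𝔭0 : 𝔭 ≠ ⊥ := by
    intro h
    have hlo' : Q.LiesOver (⊥ : Ideal (𝓞 F)) := h ▸ hlo
    exact hP0 (Ideal.eq_bot_of_liesOver_bot (𝓞 F) Q)
  have h𝔭P : 𝔭.IsPrime := Ideal.IsPrime.under (𝓞 F) Q
  have hN𝔭 : Ideal.absNorm 𝔭 = Ideal.absNorm Q := by
    have h1 := Ideal.absNorm_eq_pow_inertiaDeg'_of_liesOver Q 𝔭 h𝔭P h𝔭0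
    have h2 : 𝔭.inertiaDeg' Q ≠ 0 := by
      intro h
      rw [h, pow_zero] at h1
      exact hPn.ne_one h1
    rcases (Nat.dvd_prime hPn).mp (h1 ▸ dvd_pow_self (Ideal.absNorm 𝔭) h2) with h3 | h3
    · rw [h3, one_pow] at h1
      exact absurd h1 hPn.ne_one
    · exact h3
  have hdvd1 : Q ∣ 𝔭.map (algebraMap (𝓞 F) (𝓞 K)) := by
    rw [Ideal.dvd_iff_le]
    exact Ideal.map_comap_le
  have hdvd2 : Q.map (act J) ∣ 𝔭.map (algebraMap (𝓞 F) (𝓞 K)) := by
    have h1 : (𝔭.map (algebraMap (𝓞 F) (𝓞 K))).map (act J) =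
        𝔭.map (algebraMap (𝓞 F) (𝓞 K)) := by
      rw [Ideal.map_map]
      congr 1
      ext x
      exact hJF (x : F)
    rw [← h1, Ideal.dvd_iff_le]
    exact Ideal.map_mono Ideal.map_comap_le
  have hmax2 : (Q.map (act J)).IsMaximal := by
    refine (isPrime_map_act J hP).isMaximal fun h => hPn.ne_zero ?_
    rw [← absNorm_map_act J Q, h, Ideal.absNorm_bot]
  obtain ⟨I, hI⟩ := (Ideal.isCoprime_of_isMaximal hne).mul_dvd hdvd1 hdvd2
  have hI1 : I = ⊤ := by
    have h1 := congrArg Ideal.absNorm hI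
    rw [Ideal.absNorm_algebraMap, finrank_ringOfIntegers, h2, map_mul, map_mul, absNorm_map_act,
      hN𝔭, sq] at h1
    have h3 : Ideal.absNorm I = 1 :=
      (Nat.eq_of_mul_eq_mul_left (Nat.mul_pos hPn.pos hPn.pos) (by rw [mul_one]; exact h1)).symm
    exact Ideal.absNorm_eq_one_iff.mp h3
  rw [hI1, Ideal.mul_top] at hI
  refine ⟨ClassGroup.mk0 ⟨𝔭, mem_nonZeroDivisors_of_ne_zero h𝔭0⟩, ?_⟩
  rw [ClassGroup.extendedHom_mk0, gal_mk0, ← map_mul]
  congr 1
  exact Subtype.ext hI

/-- The class number of `K` divides the product of the number of classes with `C̄ = C⁻¹` and the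
class number of the real subfield. -/
theorem card_dvd (hζ : IsPrimitiveRoot ζ p) (h2 : Module.finrank F K = 2)
    {J : K ≃ₐ[ℚ] K} (hJ1 : J ≠ 1) (hJF : ∀ x : F, J (algebraMap F K x) = algebraMap F K x) :
    classNumber K ∣ Nat.card (minus J) * classNumber F := by
  set φ : ClassGroup (𝓞 K) →* ClassGroup (𝓞 K) := MonoidHom.id _ * (gal J).toMonoidHom with hφ
  have hφa : ∀ C, φ C = C * gal J C := fun C => rfl
  have hker : φ.ker = minus J := by
    ext C
    rw [MonoidHom.mem_ker, hφa, mem_minus, mul_comm]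
    exact mul_eq_one_iff_eq_inv
  have hran : φ.range ≤ (ClassGroup.extendedHom (𝓞 F) (𝓞 K)).range := by
    rintro _ ⟨C, rfl⟩
    exact mul_gal_mem_range hζ h2 hJ1 hJF C
  have h3 : classNumber K = Nat.card (minus J) * Nat.card φ.range := by
    rw [classNumber, ← Nat.card_eq_fintype_card, ← hker, ← Subgroup.card_mul_index φ.ker,
      Subgroup.index_ker]
  have h4 : Nat.card φ.range ∣ classNumber F := by
    refine (Subgroup.card_dvd_of_le hran).trans ?_
    rw [classNumber, ← Nat.card_eq_fintype_card]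
    exact Subgroup.card_range_dvd _
  rw [h3]
  exact mul_dvd_mul_left _ h4

/-- **Kummer's criterion, one half**: if `p` does not divide the numerators of the Bernoulli numbers
`B_2, B_4, …, B_{p-3}`, then `p` does not divide the relative class number of `ℚ(ζ_p)`.  Here `F` is
the maximal real subfield, the fixed field of the complex conjugation `J`. -/
theorem not_dvd_relative (hp2 : p ≠ 2) (hζ : IsPrimitiveRoot ζ p)
    (hreg : ∀ k : ℕ, Even k → 2 ≤ k → k + 3 ≤ p → ¬ (p : ℤ) ∣ (bernoulli k).num)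
    (h2 : Module.finrank F K = 2) {J : K ≃ₐ[ℚ] K} (hJζ : J ζ = ζ⁻¹)
    (hJF : ∀ x : F, J (algebraMap F K x) = algebraMap F K x) {m : ℕ}
    (hm : classNumber K = classNumber F * m) : ¬ p ∣ m := by
  intro hpm
  have hJ1 : J ≠ 1 := by
    rintro rfl
    rw [AlgEquiv.one_apply] at hJζ
    have h3 : ζ ^ 2 = 1 := by
      rw [sq]
      nth_rewrite 1 [hJζ]
      exact inv_mul_cancel₀ (hζ.ne_zero hp.out.ne_zero)
    have h4 := hζ.dvd_of_pow_eq_one 2 h3
    exact hp2 ((Nat.prime_dvd_prime_iff_eq hp.out Nat.prime_two).mp h4)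
  have h3 := card_dvd hζ h2 hJ1 hJF
  rw [hm, mul_comm] at h3
  have h4 : 0 < classNumber F := classNumber_pos F
  have h5 := Nat.dvd_of_mul_dvd_mul_right h4 h3
  exact not_dvd_card_minus hp2 hζ hreg hJζ (hpm.trans h5)

omit [NumberField F] [Algebra F K] in
/-- **Kummer's criterion, one half**: if `p` does not divide the numerators of the Bernoulli numbers
`B_2, B_4, …, B_{p-3}`, then `p` does not divide the relative class number `h(K) / h(K⁺)` of
`K = ℚ(ζ_p)`. -/
theorem not_dvd_relative_class_number (hp2 : p ≠ 2)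
    (hreg : ∀ k : ℕ, Even k → 2 ≤ k → k + 3 ≤ p → ¬ (p : ℤ) ∣ (bernoulli k).num) {m : ℕ}
    (hm : classNumber K = classNumber (maximalRealSubfield K) * m) : ¬ p ∣ m := by
  have hp3 : 2 < p := lt_of_le_of_ne hp.out.two_le (Ne.symm hp2)
  have : IsCMField K := IsCyclotomicExtension.Rat.isCMField K (S := {p}) ⟨p, rfl, hp3⟩
  have hζ := IsCyclotomicExtension.zeta_spec p ℚ K
  refine not_dvd_relative (F := maximalRealSubfield K) hp2 hζ hreg
    (Algebra.IsQuadraticExtension.finrank_eq_two _ K)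
    (J := (IsCMField.complexConj K).restrictScalars ℚ) ?_ (fun x => ?_) hm
  · let φ : K →+* ℂ := Classical.choice (inferInstance : Nonempty (K →+* ℂ))
    apply φ.injective
    change φ (IsCMField.complexConj K (IsCyclotomicExtension.zeta p ℚ K)) = _
    rw [IsCMField.complexEmbedding_complexConj, map_inv₀]
    have h1 : ‖φ (IsCyclotomicExtension.zeta p ℚ K)‖ = 1 := by
      refine Complex.norm_eq_one_of_pow_eq_one (n := p) ?_ hp.out.ne_zero
      rw [← map_pow, hζ.pow_eq_one, map_one]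
    exact (Complex.inv_eq_conj h1).symm
  · exact IsCMField.complexConj_apply_eq_self K x

end Cyclo

end Fermat.Agent.Cor.Stick
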