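import Fermat.Agent.Corollaries.Stick.Jacobi

/-!
# The prime factorization of Jacobi sums and Gauss sums

`K = ℚ(ζ_p)`, `P` a prime ideal of degree one of `K`, not above `p`, `χ` the `p`-th power residue
symbol modulo `P` (a character of order `p` of `F = 𝓞 K ⧸ P` with `χ(x) ≡ x ^ ((N P - 1) / p)`).

* `span_jacobiSum` (Kummer 1847): `(J(χ⁻¹, χ⁻ᵇ))` is the product of the `σ_a⁻¹ P` over the `a` with
  `a + (b a mod p) > p`, and `(J(χ, χᵇ))` the product over the other `a`;
* `span_gaussSum_pow` (**Stickelberger**): `(g(χ⁻¹) ^ p) = ∏_a (σ_a⁻¹ P) ^ a`.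
-/

set_option autoImplicit false

noncomputable section

namespace Fermat.Agent.Cor.Stick

open NumberField Finset Fermat.Agent.Cor.Cat

/-- `#{b : 1 ≤ b ≤ p - 2, a + (b a mod p) > p} = a - 1`. -/
theorem card_filter_lt {p : ℕ} [hp : Fact p.Prime] {a : ℕ} (h1 : 0 < a) (h2 : a < p) :
    ((Ico 1 (p - 1)).filter fun b => p < a + b * a % p).card = a - 1 := by
  have hpos := hp.out.pos
  have ha : ¬ p ∣ a := fun h => absurd (Nat.le_of_dvd h1 h) (not_le.mpr h2)
  have hcard : (Ioo (p - a) p).card = a - 1 := by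
    rw [Nat.card_Ioo]
    omega
  rw [← hcard]
  refine Finset.card_bij (fun b _ => b * a % p) ?_ ?_ ?_
  · intro b hb
    rw [mem_filter, mem_Ico] at hb
    rw [mem_Ioo]
    exact ⟨by omega, Nat.mod_lt _ hpos⟩
  · intro b hb b' hb' h
    rw [mem_filter, mem_Ico] at hb hb'
    have h3 : (b : ZMod p) * a = b' * a := by
      have := (ZMod.natCast_eq_natCast_iff' (b * a) (b' * a) p).mpr h
      push_cast at this
      exact this
    have ha0 : (a : ZMod p) ≠ 0 := fun h4 => ha ((ZMod.natCast_eq_zero_iff a p).mp h4)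
    have h4 := mul_right_cancel₀ ha0 h3
    have h5 := (ZMod.natCast_eq_natCast_iff' b b' p).mp h4
    rwa [Nat.mod_eq_of_lt (by omega), Nat.mod_eq_of_lt (by omega)] at h5
  · intro c hc
    rw [mem_Ioo] at hc
    have ha0 : (a : ZMod p) ≠ 0 := fun h4 => ha ((ZMod.natCast_eq_zero_iff a p).mp h4)
    set b : ℕ := ((c : ZMod p) * (a : ZMod p)⁻¹).val with hb
    have hba : (b : ZMod p) * a = c := by
      rw [hb, ZMod.natCast_zmod_val, mul_assoc, inv_mul_cancel₀ ha0, mul_one]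
    have hbac : b * a % p = c := by
      have h5 := (ZMod.natCast_eq_natCast_iff' (b * a) c p).mp (by push_cast; exact hba)
      rwa [Nat.mod_eq_of_lt hc.2] at h5
    have hblt : b < p := ZMod.val_lt _
    have hb0 : b ≠ 0 := by
      intro h
      rw [h, zero_mul, Nat.zero_mod] at hbac
      omega
    have hbp : b ≠ p - 1 := by
      intro h
      have h5 : c + a ≡ 0 [MOD p] := by
        have h6 : (c : ZMod p) + a = 0 := by
          have h7 : ((b : ℕ) : ZMod p) + 1 = 0 := by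
            have h8 : ((b + 1 : ℕ) : ZMod p) = 0 := by
              rw [h, Nat.sub_add_cancel hp.out.one_le, ZMod.natCast_self]
            push_cast at h8
            exact h8
          rw [← hba]
          linear_combination (a : ZMod p) * h7
        have h8 : ((c + a : ℕ) : ZMod p) = ((0 : ℕ) : ZMod p) := by
          push_cast
          exact h6
        exact (ZMod.natCast_eq_natCast_iff _ _ _).mp h8
      have h6 : p ∣ c + a := (Nat.modEq_zero_iff_dvd).mp h5
      obtain ⟨m, hm⟩ := h6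
      have h7 : m = 1 := by
        have h8 : p < p * m := by omega
        have h9 : p * m < p * 2 := by omega
        have h10 := Nat.lt_of_mul_lt_mul_left h9
        have h11 : 1 < m := by
          by_contra hcon
          interval_cases m <;> omega
        omega
      rw [h7, mul_one] at hm
      omega
    refine ⟨b, ?_, hbac⟩
    rw [mem_filter, mem_Ico, hbac]
    exact ⟨⟨by omega, by omega⟩, by omega⟩

section Cyclo

variable {p : ℕ} [hp : Fact p.Prime] {K : Type*} [Field K] [NumberField K]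
  [IsCyclotomicExtension {p} ℚ K] {ζ : K} {P : Ideal (𝓞 K)} {F : Type*} [Field F] [Fintype F]
  {r : 𝓞 K →+* F}

/-- **The ideals of the Jacobi sums** (Kummer 1847). -/
theorem span_jacobiSum {b : ℕ} (hb : ¬ p ∣ b) (hb' : ¬ p ∣ b + 1) (hζ : IsPrimitiveRoot ζ p)
    (hP : P.IsPrime) (hN : (Ideal.absNorm P).Prime) (hNp : Ideal.absNorm P ≠ p)
    (hker : ∀ x, r x = 0 ↔ x ∈ P) (hcard : Fintype.card F = Ideal.absNorm P) {k : ℕ}
    (hk : Fintype.card F - 1 = p * k) {χ : MulChar F (𝓞 K)} (hχp : χ ^ p = 1)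
    (hrχ : ∀ x, r (χ x) = x ^ k) :
    Ideal.span {jacobiSum χ⁻¹ (χ⁻¹ ^ b)} = ∏ σ ∈ tset hζ b, P.map (act σ) ∧
      Ideal.span {jacobiSum χ (χ ^ b)} = ∏ σ ∈ tset' hζ b, P.map (act σ) ∧
      jacobiSum χ⁻¹ (χ⁻¹ ^ b) * jacobiSum χ (χ ^ b) = (Ideal.absNorm P : ℕ) := by
  classical
  have hb0 : b ≠ 0 := by
    rintro rfl
    exact hb (dvd_zero p)
  have hr : IsPrimitiveRoot (r hζ.toInteger) p :=
    isPrimitiveRoot_apply hζ (hcard ▸ hN) (hcard ▸ hNp)
  have hz := hζ.toInteger_isPrimitiveRoot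
  have hq : 1 < Fintype.card F := Fintype.one_lt_card
  have hk0 : 0 < k := by
    rcases Nat.eq_zero_or_pos k with h | h
    · rw [h, mul_zero] at hk; omega
    · exact h
  have hχ : ∀ x, x ≠ 0 → ∃ j : ℕ, χ x = hζ.toInteger ^ j := by
    intro x hx
    have h1 : χ x ^ p = 1 := by
      rw [← MulChar.pow_apply' χ hp.out.ne_zero, hχp, MulChar.one_apply (isUnit_iff_ne_zero.mpr hx)]
    have : NeZero p := ⟨hp.out.ne_zero⟩
    obtain ⟨j, -, hj⟩ := hz.eq_pow_of_pow_eq_one h1
    exact ⟨j, hj.symm⟩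
  have hp1 : 1 < p := hp.out.one_lt
  have hfer : ∀ x : F, x ≠ 0 → x ^ (k * p) = 1 := fun x hx => by
    rw [mul_comm, ← hk, FiniteField.pow_card_sub_one_eq_one _ hx]
  -- the values under the automorphisms
  have hactχ : ∀ (σ : K ≃ₐ[ℚ] K) (x : F), act σ (χ x) = χ x ^ expo hζ σ := by
    intro σ x
    rcases eq_or_ne x 0 with rfl | hx
    · rw [MulChar.map_zero, map_zero, zero_pow (expo_pos hζ σ).ne']
    · obtain ⟨j, hj⟩ := hχ x hx
      rw [hj, map_pow, act_toInteger, ← pow_mul, ← pow_mul, mul_comm]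
  have hv1 : ∀ (σ : K ≃ₐ[ℚ] K) (x : F), r (act σ (χ x)) = x ^ (k * expo hζ σ) := by
    intro σ x
    rw [hactχ, map_pow, hrχ, pow_mul]
  have hv2 : ∀ (σ : K ≃ₐ[ℚ] K) (x : F), r (act σ ((χ ^ b) x)) =
      x ^ (k * (b * expo hζ σ % p)) := by
    intro σ x
    rw [MulChar.pow_apply' _ hb0, map_pow, map_pow, hv1]
    rcases eq_or_ne x 0 with rfl | hx
    · rw [zero_pow (Nat.mul_pos hk0 (expo_pos hζ σ)).ne', zero_pow hb0, zero_pow]
      refine (Nat.mul_pos hk0 (Nat.pos_of_ne_zero fun h => ?_)).ne'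
      rcases hp.out.dvd_mul.mp (Nat.dvd_of_mod_eq_zero h) with h1 | h1
      · exact hb h1
      · exact absurd (Nat.le_of_dvd (expo_pos hζ σ) h1) (not_le.mpr (expo_lt hζ σ))
    · rw [← pow_mul]
      conv_lhs => rw [show k * expo hζ σ * b = k * (b * expo hζ σ % p) +
        k * p * (b * expo hζ σ / p) by
          conv_lhs => rw [mul_assoc, mul_comm (expo hζ σ) b, ← Nat.mod_add_div (b * expo hζ σ) p]
          ring]
      rw [pow_add, pow_mul x (k * p), hfer x hx, one_pow, mul_one]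
  have hv3 : ∀ (σ : K ≃ₐ[ℚ] K) (x : F), r (act σ (χ⁻¹ x)) = x ^ (k * (p - expo hζ σ)) := by
    intro σ x
    have hlt := expo_lt hζ σ
    have hpos := expo_pos hζ σ
    rw [MulChar.inv_apply', hv1]
    generalize expo hζ σ = a at hlt hpos
    rcases eq_or_ne x 0 with rfl | hx
    · rw [inv_zero, zero_pow (Nat.mul_pos hk0 hpos).ne', zero_pow]
      exact (Nat.mul_pos hk0 (by omega)).ne'
    · rw [inv_pow]
      apply inv_eq_of_mul_eq_one_left
      rw [← pow_add, ← mul_add, Nat.sub_add_cancel hlt.le]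
      exact hfer x hx
  have hv4 : ∀ (σ : K ≃ₐ[ℚ] K) (x : F), r (act σ ((χ⁻¹ ^ b) x)) =
      x ^ (k * (p - b * expo hζ σ % p)) := by
    intro σ x
    have hlt : b * expo hζ σ % p < p := Nat.mod_lt _ hp.out.pos
    rcases eq_or_ne x 0 with rfl | hx
    · rw [MulChar.pow_apply' _ hb0, MulChar.map_zero, zero_pow hb0, map_zero, map_zero, zero_pow]
      exact (Nat.mul_pos hk0 (by omega)).ne'
    · rw [inv_pow, MulChar.inv_apply', hv2, inv_pow]
      apply inv_eq_of_mul_eq_one_left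
      rw [← pow_add, ← mul_add, Nat.sub_add_cancel hlt.le]
      exact hfer x hx
  -- the product of the two Jacobi sums
  set α : 𝓞 K := jacobiSum χ⁻¹ (χ⁻¹ ^ b) with hα
  set β : 𝓞 K := jacobiSum χ (χ ^ b) with hβ
  have hone : ∀ m : ℕ, (∀ x : F, x ≠ 0 → χ x ^ m = 1) → p ∣ m := by
    intro m hm
    have h1 : ∀ x : Fˣ, x ^ (k * m) = 1 := by
      intro x
      have := congrArg r (hm x x.ne_zero)
      rw [map_pow, hrχ, map_one, ← pow_mul] at this
      exact Units.ext (by push_cast; exact this)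
    have h2 := (FiniteField.forall_pow_eq_one_iff F (k * m)).mp h1
    rw [hk, mul_comm] at h2
    exact Nat.dvd_of_mul_dvd_mul_left hk0 h2
  have hprod : α * β = (Ideal.absNorm P : ℕ) := by
    apply FaithfulSMul.algebraMap_injective (𝓞 K) K
    have hinj := FaithfulSMul.algebraMap_injective (𝓞 K) K
    rw [map_mul, hα, hβ, ← jacobiSum_ringHomComp, ← jacobiSum_ringHomComp, inv_pow,
      ← MulChar.ringHomComp_inv, ← MulChar.ringHomComp_inv, mul_comm, map_natCast, ← hcard]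
    refine jacobiSum_mul_jacobiSum_inv ?_ ?_ ?_ ?_
    · rw [ringChar.eq_zero]
      exact (CharP.ringChar_ne_zero_of_finite F).symm
    · intro h
      have h1 := hone 1 fun x hx => by
        have := DFunLike.congr_fun h x
        rw [MulChar.ringHomComp_apply, MulChar.one_apply (isUnit_iff_ne_zero.mpr hx)] at this
        rw [pow_one]
        exact hinj (by rw [this, map_one])
      exact hp.out.one_lt.ne' (Nat.dvd_one.mp h1)
    · intro h
      refine hb (hone b fun x hx => ?_)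
      have := DFunLike.congr_fun h x
      rw [MulChar.ringHomComp_apply, MulChar.one_apply (isUnit_iff_ne_zero.mpr hx),
        MulChar.pow_apply' _ hb0] at this
      exact hinj (by rw [this, map_one])
    · intro h
      refine hb' (hone (b + 1) fun x hx => ?_)
      have := DFunLike.congr_fun h x
      rw [MulChar.mul_apply, MulChar.ringHomComp_apply, MulChar.ringHomComp_apply,
        MulChar.one_apply (isUnit_iff_ne_zero.mpr hx), ← map_mul, MulChar.pow_apply' _ hb0,
        ← pow_succ'] at this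
      exact hinj (by rw [this, map_one])
  -- the conjugates lie in `P`
  have hmemα : ∀ σ ∈ tset hζ b, act σ⁻¹ α ∈ P := by
    intro σ hσ
    rw [mem_tset] at hσ
    have hlt := expo_lt hζ σ⁻¹
    have hmod : b * expo hζ σ⁻¹ % p < p := Nat.mod_lt _ hp.out.pos
    rw [← hker]
    refine apply_jacobiSum_eq_zero (hv3 σ⁻¹) (hv4 σ⁻¹) ?_
    rw [hk, ← mul_add, mul_comm p k]
    exact Nat.mul_lt_mul_of_pos_left (by omega) hk0
  have hmemβ : ∀ σ ∉ tset hζ b, act σ⁻¹ β ∈ P := by
    intro σ hσ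
    rw [mem_tset, not_lt] at hσ
    have hlt := expo_lt hζ σ⁻¹
    have hpos := expo_pos hζ σ⁻¹
    have hne : expo hζ σ⁻¹ + b * expo hζ σ⁻¹ % p ≠ p := by
      intro h
      have h1 : p ∣ (b + 1) * expo hζ σ⁻¹ := by
        have h2 : (b + 1) * expo hζ σ⁻¹ = p + p * (b * expo hζ σ⁻¹ / p) := by
          conv_lhs => rw [add_mul, one_mul, ← Nat.mod_add_div (b * expo hζ σ⁻¹) p]
          omega
        rw [h2]
        exact dvd_add dvd_rfl (dvd_mul_right _ _)
      rcases hp.out.dvd_mul.mp h1 with h2 | h2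
      · exact hb' h2
      · exact absurd (Nat.le_of_dvd hpos h2) (not_le.mpr hlt)
    rw [← hker]
    refine apply_jacobiSum_eq_zero (hv1 σ⁻¹) (hv2 σ⁻¹) ?_
    rw [hk, ← mul_add, mul_comm p k]
    exact Nat.mul_lt_mul_of_pos_left (by omega) hk0
  -- divisibility
  have hcop : ∀ σ τ : K ≃ₐ[ℚ] K, σ ≠ τ → IsCoprime (P.map (act σ)) (P.map (act τ)) := by
    intro σ τ hστ
    have hmax : ∀ σ : K ≃ₐ[ℚ] K, (P.map (act σ)).IsMaximal := fun σ => by
      refine (isPrime_map_act σ hP).isMaximal fun h => hN.ne_zero ?_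
      rw [← absNorm_map_act σ P, h, Ideal.absNorm_bot]
    have := hmax σ
    have := hmax τ
    exact Ideal.isCoprime_of_isMaximal fun h => hστ (map_act_injective hζ hN hr hker h)
  have hA : ∏ σ ∈ tset hζ b, P.map (act σ) ∣ Ideal.span {α} := by
    refine Finset.prod_dvd_of_coprime (fun σ _ τ _ h => hcop σ τ h) fun σ hσ => ?_
    rw [Ideal.dvd_span_singleton]
    exact mem_map_act (hmemα σ hσ)
  have hB : ∏ σ ∈ tset' hζ b, P.map (act σ) ∣ Ideal.span {β} := by
    refine Finset.prod_dvd_of_coprime (fun σ _ τ _ h => hcop σ τ h) fun σ hσ => ?_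
    rw [Ideal.dvd_span_singleton]
    exact mem_map_act (hmemβ σ (mem_tset'.mp hσ))
  obtain ⟨I, hI⟩ := hA
  obtain ⟨J, hJ⟩ := hB
  have hnorm : Ideal.absNorm (∏ σ ∈ tset hζ b, P.map (act σ)) *
      Ideal.absNorm (∏ σ ∈ tset' hζ b, P.map (act σ)) =
      Ideal.absNorm P ^ Module.finrank ℚ K := by
    have : IsGalois ℚ K := IsCyclotomicExtension.isGalois {p} ℚ K
    rw [map_prod, map_prod]
    simp only [absNorm_map_act, prod_const]
    rw [← pow_add, ← IsGalois.card_aut_eq_finrank, Nat.card_eq_fintype_card]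
    congr 1
    rw [← Finset.card_univ, ← Finset.card_filter_add_card_filter_not (s := univ)
      (fun σ : K ≃ₐ[ℚ] K => p < expo hζ σ⁻¹ + b * expo hζ σ⁻¹ % p)]
    rfl
  have hnorm2 : Ideal.absNorm (Ideal.span {α}) * Ideal.absNorm (Ideal.span {β}) =
      Ideal.absNorm P ^ Module.finrank ℚ K := by
    rw [← map_mul, Ideal.span_singleton_mul_span_singleton, hprod, Ideal.absNorm_span_natCast,
      RingOfIntegers.rank]
  rw [hI, hJ, map_mul, map_mul, mul_mul_mul_comm, hnorm] at hnorm2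
  have h1 : Ideal.absNorm I * Ideal.absNorm J = 1 :=
    Nat.eq_of_mul_eq_mul_left (pow_pos hN.pos _) (by rw [hnorm2, mul_one])
  have h2 : I = ⊤ := Ideal.absNorm_eq_one_iff.mp (Nat.eq_one_of_mul_eq_one_right h1)
  have h3 : J = ⊤ := Ideal.absNorm_eq_one_iff.mp (Nat.eq_one_of_mul_eq_one_left h1)
  refine ⟨by rw [hI, h2, Ideal.mul_top], by rw [hJ, h3, Ideal.mul_top], hprod⟩

/-- `(ℓ) = ∏_σ σ P`. -/
theorem span_absNorm (hp2 : p ≠ 2) (hζ : IsPrimitiveRoot ζ p)
    (hP : P.IsPrime) (hN : (Ideal.absNorm P).Prime) (hNp : Ideal.absNorm P ≠ p)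
    (hker : ∀ x, r x = 0 ↔ x ∈ P) (hcard : Fintype.card F = Ideal.absNorm P) {k : ℕ}
    (hk : Fintype.card F - 1 = p * k) {χ : MulChar F (𝓞 K)} (hχp : χ ^ p = 1)
    (hrχ : ∀ x, r (χ x) = x ^ k) :
    Ideal.span {((Ideal.absNorm P : ℕ) : 𝓞 K)} = ∏ σ : K ≃ₐ[ℚ] K, P.map (act σ) := by
  classical
  have h1 : ¬ p ∣ 1 := hp.out.one_lt.ne' ∘ Nat.dvd_one.mp
  have h2 : ¬ p ∣ 1 + 1 := fun h => hp2 ((Nat.prime_dvd_prime_iff_eq hp.out Nat.prime_two).mp h)
  obtain ⟨h3, h4, h5⟩ := span_jacobiSum h1 h2 hζ hP hN hNp hker hcard hk hχp hrχ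
  rw [← h5, ← Ideal.span_singleton_mul_span_singleton, h3, h4,
    ← Finset.prod_filter_mul_prod_filter_not univ
    (fun σ : K ≃ₐ[ℚ] K => p < expo hζ σ⁻¹ + 1 * expo hζ σ⁻¹ % p)]
  rfl

/-- **Stickelberger's theorem for Gauss sums** (`P` of degree one: Kummer 1847).  `p` odd, `P` a
prime ideal of degree one of `ℚ(ζ_p)` not above `p`, `χ` the `p`-th power residue symbol modulo `P`,
`ψ` a primitive additive character of the residue field with values in a domain `R ⊇ 𝓞 K`.  Then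
`g(χ⁻¹, ψ) ^ p` is an element `γ` of `𝓞 K`, and `(γ) = ∏_a (σ_a⁻¹ P) ^ a`, where
`σ_a ζ = ζ ^ a`, `0 < a < p`. -/
theorem span_gaussSum_pow (hp2 : p ≠ 2) (hζ : IsPrimitiveRoot ζ p)
    (hP : P.IsPrime) (hN : (Ideal.absNorm P).Prime) (hNp : Ideal.absNorm P ≠ p)
    (hker : ∀ x, r x = 0 ↔ x ∈ P) (hcard : Fintype.card F = Ideal.absNorm P) {k : ℕ}
    (hk : Fintype.card F - 1 = p * k) {χ : MulChar F (𝓞 K)} (hχp : χ ^ p = 1)
    (hrχ : ∀ x, r (χ x) = x ^ k) {R : Type*} [CommRing R] [IsDomain R] [Algebra (𝓞 K) R]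
    [FaithfulSMul (𝓞 K) R] {ψ : AddChar F R} (hψ : ψ.IsPrimitive) :
    ∃ γ : 𝓞 K, algebraMap (𝓞 K) R γ =
        gaussSum ((χ⁻¹).ringHomComp (algebraMap (𝓞 K) R)) ψ ^ p ∧
      Ideal.span {γ} = ∏ σ : K ≃ₐ[ℚ] K, P.map (act σ) ^ expo hζ σ⁻¹ := by
  classical
  have hinj := FaithfulSMul.algebraMap_injective (𝓞 K) R
  have hr : IsPrimitiveRoot (r hζ.toInteger) p :=
    isPrimitiveRoot_apply hζ (hcard ▸ hN) (hcard ▸ hNp)
  have hq : 1 < Fintype.card F := Fintype.one_lt_card
  have hk0 : 0 < k := by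
    rcases Nat.eq_zero_or_pos k with h | h
    · rw [h, mul_zero] at hk; omega
    · exact h
  -- the order of `χ⁻¹` is `p`
  have hχ1 : χ ≠ 1 := by
    rintro rfl
    have h1 : ∀ x : Fˣ, x ^ k = 1 := by
      intro x
      have := hrχ x
      rw [MulChar.one_apply_coe, map_one] at this
      exact Units.ext (by push_cast; exact this.symm)
    have h2 := (FiniteField.forall_pow_eq_one_iff F k).mp h1
    rw [hk] at h2
    have h3 := Nat.le_of_dvd hk0 h2
    have h4 := hp.out.one_lt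
    nlinarith
  set χ' : MulChar F R := (χ⁻¹).ringHomComp (algebraMap (𝓞 K) R) with hχ'
  have hχ'p : χ' ^ p = 1 := by
    rw [hχ', MulChar.ringHomComp_pow, inv_pow, hχp, inv_one]
    ext x
    rw [MulChar.ringHomComp_apply, MulChar.one_apply_coe, MulChar.one_apply_coe, map_one]
  have hχ'1 : χ' ≠ 1 := by
    intro h
    apply hχ1
    rw [← inv_eq_one]
    ext x
    have h1 := DFunLike.congr_fun h (x : F)
    rw [hχ', MulChar.ringHomComp_apply, MulChar.one_apply_coe] at h1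
    rw [MulChar.one_apply_coe]
    rw [hinj (h1.trans (map_one _).symm)]
  have hord : orderOf χ' = p := orderOf_eq_prime hχ'p hχ'1
  have hg := gaussSum_pow_eq_prod_jacobiSum (χ := χ') (ψ := ψ) (by
    rw [hord]
    exact hp.out.two_le) hψ
  rw [hord] at hg
  refine ⟨χ⁻¹ (-1) * Fintype.card F * ∏ b ∈ Ico 1 (p - 1), jacobiSum χ⁻¹ (χ⁻¹ ^ b), ?_, ?_⟩
  · rw [hg, map_mul, map_mul, map_prod, map_natCast]
    congr 1
    refine Finset.prod_congr rfl fun b _ => ?_
    rw [hχ', MulChar.ringHomComp_pow, jacobiSum_ringHomComp]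
  · have hu : IsUnit (χ⁻¹ (-1) : 𝓞 K) := by
      have h1 : χ⁻¹ (-1) * χ⁻¹ (-1) = 1 := by
        rw [← map_mul, neg_one_mul, neg_neg, map_one]
      exact IsUnit.of_mul_eq_one _ h1
    have hspan : ∀ b ∈ Ico 1 (p - 1),
        Ideal.span {jacobiSum χ⁻¹ (χ⁻¹ ^ b)} = ∏ σ ∈ tset hζ b, P.map (act σ) := by
      intro b hb
      rw [mem_Ico] at hb
      refine (span_jacobiSum (fun h => ?_) (fun h => ?_) hζ hP hN hNp hker hcard hk hχp hrχ).1
      · have := Nat.le_of_dvd (by omega) h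
        omega
      · have := Nat.le_of_dvd (by omega) h
        omega
    rw [← Ideal.span_singleton_mul_span_singleton, ← Ideal.span_singleton_mul_span_singleton,
      Ideal.span_singleton_eq_top.mpr hu, Ideal.top_mul, hcard,
      span_absNorm hp2 hζ hP hN hNp hker hcard hk hχp hrχ, ← Ideal.prod_span_singleton,
      Finset.prod_congr rfl hspan]
    simp_rw [tset, Finset.prod_filter]
    rw [Finset.prod_comm, ← Finset.prod_mul_distrib]
    refine Finset.prod_congr rfl fun σ _ => ?_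
    rw [← Finset.prod_filter, Finset.prod_const,
      card_filter_lt (expo_pos hζ σ⁻¹) (expo_lt hζ σ⁻¹), ← pow_succ',
      Nat.sub_add_cancel (expo_pos hζ σ⁻¹)]

end Cyclo

end Fermat.Agent.Cor.Stick
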