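import Mathlib

/-!
# Voronoi's congruence modulo `p`

For `k` even, `2 ≤ k ≤ p - 3`, and `c` prime to `p`,
`(c ^ k - 1) B_k ≡ k c ^ (k - 1) ∑_{a < p} a ^ (k - 1) ⌊c a / p⌋ mod p`.
-/

set_option autoImplicit false

noncomputable section

namespace Fermat.Agent.Cor.Stick

open Finset

section Bern

variable {p : ℕ} [hp : Fact p.Prime]

theorem norm_natCast_of_lt {n : ℕ} (h0 : 0 < n) (h : n < p) : ‖(n : ℚ_[p])‖ = 1 :=
  Padic.norm_natCast_eq_one_iff.mpr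
    ((Nat.Prime.coprime_iff_not_dvd hp.out).mpr (Nat.not_dvd_of_pos_of_lt h0 h))

/-- The Bernoulli numbers `B_j`, `j ≤ p - 2`, are `p`-integral. -/
theorem norm_bernoulli_le_one {j : ℕ} (hj : j + 2 ≤ p) : ‖((bernoulli j : ℚ) : ℚ_[p])‖ ≤ 1 := by
  induction j using Nat.strong_induction_on with
  | _ j ih =>
    rcases Nat.eq_zero_or_pos j with rfl | hj0
    · simp
    have h1 := sum_bernoulli (j + 1)
    rw [if_neg (by omega), sum_range_succ, Nat.choose_succ_self_right] at h1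
    have h2 : ((j + 1 : ℕ) : ℚ_[p]) * ((bernoulli j : ℚ) : ℚ_[p]) =
        -∑ k ∈ range j, (((j + 1).choose k : ℕ) : ℚ_[p]) * ((bernoulli k : ℚ) : ℚ_[p]) := by
      have h3 := congrArg (Rat.cast : ℚ → ℚ_[p]) h1
      push_cast at h3 ⊢
      linear_combination h3
    have h4 : ‖((bernoulli j : ℚ) : ℚ_[p])‖ =
        ‖∑ k ∈ range j, (((j + 1).choose k : ℕ) : ℚ_[p]) * ((bernoulli k : ℚ) : ℚ_[p])‖ := by
      rw [← norm_neg (∑ k ∈ range j, _), ← h2, norm_mul,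
        norm_natCast_of_lt (Nat.succ_pos j) (by omega), one_mul]
    rw [h4]
    refine IsUltrametricDist.norm_sum_le_of_forall_le_of_nonneg zero_le_one fun k hk => ?_
    rw [mem_range] at hk
    rw [norm_mul]
    refine mul_le_one₀ ?_ (norm_nonneg _) (ih k hk (by omega))
    exact_mod_cast Padic.norm_int_le_one (p := p) (((j + 1).choose k : ℕ) : ℤ)

/-- `∑_{a < p} a ^ k ≡ p B_k mod p ^ 2`. -/
theorem norm_sum_pow_sub_le {k : ℕ} (hk : k + 3 ≤ p) :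
    ‖∑ a ∈ range p, (a : ℚ_[p]) ^ k - p * ((bernoulli k : ℚ) : ℚ_[p])‖ ≤ (p : ℝ) ^ (-2 : ℤ) := by
  have h1 := congrArg (Rat.cast : ℚ → ℚ_[p]) (sum_range_pow p k)
  push_cast at h1
  have hk1 : ‖((k : ℚ_[p]) + 1)‖ = 1 := by
    exact_mod_cast norm_natCast_of_lt (p := p) (Nat.succ_pos k) (by omega)
  have hk10 : ((k : ℚ_[p]) + 1) ≠ 0 := by
    intro h
    rw [h, norm_zero] at hk1
    exact zero_ne_one hk1
  have h2 : ∑ a ∈ range p, (a : ℚ_[p]) ^ k - p * ((bernoulli k : ℚ) : ℚ_[p]) =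
      ∑ i ∈ range k, ((bernoulli i : ℚ) : ℚ_[p]) * (((k + 1).choose i : ℕ) : ℚ_[p]) *
        (p : ℚ_[p]) ^ (k + 1 - i) / (k + 1) := by
    rw [h1, sum_range_succ, Nat.choose_succ_self_right]
    rw [show k + 1 - k = 1 by omega, pow_one]
    have h3 : ((bernoulli k : ℚ) : ℚ_[p]) * ((k + 1 : ℕ) : ℚ_[p]) * (p : ℚ_[p]) / (k + 1) =
        p * ((bernoulli k : ℚ) : ℚ_[p]) := by
      push_cast
      field_simp
    rw [h3]
    ring
  rw [h2]
  refine IsUltrametricDist.norm_sum_le_of_forall_le_of_nonneg (by positivity) fun i hi => ?_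
  rw [mem_range] at hi
  rw [norm_div, hk1, div_one, norm_mul, norm_mul, Padic.norm_p_pow]
  have h3 : ‖((bernoulli i : ℚ) : ℚ_[p])‖ ≤ 1 := norm_bernoulli_le_one (by omega)
  have h4 : ‖(((k + 1).choose i : ℕ) : ℚ_[p])‖ ≤ 1 := by
    exact_mod_cast Padic.norm_int_le_one (p := p) (((k + 1).choose i : ℕ) : ℤ)
  have h5 : (p : ℝ) ^ (-((k + 1 - i : ℕ) : ℤ)) ≤ (p : ℝ) ^ (-2 : ℤ) :=
    zpow_le_zpow_right₀ (by exact_mod_cast hp.out.one_lt.le) (by omega)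
  calc _ ≤ 1 * 1 * (p : ℝ) ^ (-2 : ℤ) := by
        refine mul_le_mul (mul_le_mul h3 h4 (norm_nonneg _) zero_le_one) h5 (by positivity)
          (by norm_num)
    _ = _ := by ring

/-- The integral form of Voronoi's congruence. -/
theorem sq_dvd_voronoi {k c : ℕ} (hk0 : 0 < k) (hc : ¬ p ∣ c) :
    ((p ^ 2 : ℕ) : ℤ) ∣ ((c : ℤ) ^ k - 1) * ∑ a ∈ range p, (a : ℤ) ^ k -
      k * p * c ^ (k - 1) * ∑ a ∈ range p, (a : ℤ) ^ (k - 1) * ((c * a / p : ℕ) : ℤ) := by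
  -- the residues of `c a` are a permutation
  have hperm : ∑ a ∈ range p, ((c * a % p : ℕ) : ℤ) ^ k = ∑ a ∈ range p, (a : ℤ) ^ k := by
    refine Finset.sum_bij (fun a _ => c * a % p) ?_ ?_ ?_ fun _ _ => rfl
    · intro a _
      rw [mem_range]
      exact Nat.mod_lt _ hp.out.pos
    · intro a ha b hb hab
      rw [mem_range] at ha hb
      have h1 : c * a ≡ c * b [MOD p] := hab
      have h2 := Nat.ModEq.cancel_left_of_coprime
        ((Nat.Prime.coprime_iff_not_dvd hp.out).mpr hc) h1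
      exact Nat.ModEq.eq_of_lt_of_lt h2 ha hb
    · intro b hb
      have h3 : Function.Injective fun a : Fin p => (⟨c * a % p, Nat.mod_lt _ hp.out.pos⟩ :
          Fin p) := by
        intro a b hab
        have h1 : c * (a : ℕ) ≡ c * b [MOD p] := congrArg Fin.val hab
        have h2 := Nat.ModEq.cancel_left_of_coprime
          ((Nat.Prime.coprime_iff_not_dvd hp.out).mpr hc) h1
        exact Fin.ext (Nat.ModEq.eq_of_lt_of_lt h2 a.2 b.2)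
      obtain ⟨a, ha⟩ := (Finite.injective_iff_surjective.mp h3) ⟨b, mem_range.mp hb⟩
      exact ⟨a, mem_range.mpr a.2, congrArg Fin.val ha⟩
  -- one term
  have hterm : ∀ a : ℕ, ((p ^ 2 : ℕ) : ℤ) ∣ ((c : ℤ) * a) ^ k - ((c * a % p : ℕ) : ℤ) ^ k -
      k * p * c ^ (k - 1) * ((a : ℤ) ^ (k - 1) * ((c * a / p : ℕ) : ℤ)) := by
    intro a
    set q : ℤ := ((c * a / p : ℕ) : ℤ) with hq
    set r : ℤ := ((c * a % p : ℕ) : ℤ) with hr
    have hca : (c : ℤ) * a = r + p * q := by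
      rw [hq, hr]
      exact_mod_cast (Nat.mod_add_div (c * a) p).symm
    obtain ⟨k, rfl⟩ : ∃ k', k = k' + 1 := ⟨k - 1, by omega⟩
    rw [Nat.add_sub_cancel]
    have h1 : (c : ℤ) ^ k * a ^ k = (r + p * q) ^ k := by rw [← mul_pow, hca]
    have h2 : ((p : ℕ) : ℤ) ∣ (r + p * q) ^ k - r ^ k := by
      have h3 := sub_dvd_pow_sub_pow (r + p * q) r k
      rw [add_sub_cancel_left] at h3
      exact (dvd_mul_right _ _).trans h3
    obtain ⟨z, hz⟩ := h2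
    obtain ⟨w, hw⟩ := Polynomial.powAddExpansion r ((p : ℤ) * q) (k + 1)
    rw [Nat.add_sub_cancel] at hw
    refine ⟨w * q ^ 2 - (k + 1) * q * z, ?_⟩
    rw [hca, hw]
    push_cast
    linear_combination (-(k + 1 : ℤ) * p * q) * h1 - (k + 1 : ℤ) * p * q * hz
  have h1 := Finset.dvd_sum (s := range p) fun a _ => hterm a
  rw [sum_sub_distrib, sum_sub_distrib, hperm, ← mul_sum] at h1
  have h2 : ∑ a ∈ range p, ((c : ℤ) * a) ^ k = c ^ k * ∑ a ∈ range p, (a : ℤ) ^ k := by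
    rw [mul_sum]
    exact sum_congr rfl fun a _ => mul_pow _ _ _
  rw [h2] at h1
  rwa [sub_mul, one_mul]

/-- **Voronoi's congruence modulo `p`**: for `2 ≤ k ≤ p - 3` and `c` prime to `p`,
`(c ^ k - 1) B_k ≡ k c ^ (k - 1) ∑_{a < p} a ^ (k - 1) ⌊c a / p⌋ mod p`. -/
theorem voronoi {k c : ℕ} (hk0 : 0 < k) (hk : k + 3 ≤ p) (hc : ¬ p ∣ c) :
    ‖((c : ℚ_[p]) ^ k - 1) * ((bernoulli k : ℚ) : ℚ_[p]) -
      k * c ^ (k - 1) * ∑ a ∈ range p, (a : ℚ_[p]) ^ (k - 1) * ((c * a / p : ℕ) : ℚ_[p])‖ < 1 := by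
  have h1 : ‖((c : ℚ_[p]) ^ k - 1) * ∑ a ∈ range p, (a : ℚ_[p]) ^ k -
      k * p * c ^ (k - 1) * ∑ a ∈ range p, (a : ℚ_[p]) ^ (k - 1) * ((c * a / p : ℕ) : ℚ_[p])‖ ≤
      (p : ℝ) ^ (-2 : ℤ) := by
    have h0 : ((p : ℤ) ^ 2) ∣ ((c : ℤ) ^ k - 1) * ∑ a ∈ range p, (a : ℤ) ^ k -
        k * p * c ^ (k - 1) * ∑ a ∈ range p, (a : ℤ) ^ (k - 1) * ((c * a / p : ℕ) : ℤ) := by
      have := sq_dvd_voronoi hk0 hc
      rwa [Nat.cast_pow] at this
    have h := (Padic.norm_int_le_pow_iff_dvd _ 2).mpr h0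
    simp only [Int.cast_sub, Int.cast_mul, Int.cast_pow, Int.cast_sum, Int.cast_natCast,
      Int.cast_one, Nat.cast_ofNat] at h
    exact h
  have h2 := norm_sum_pow_sub_le (p := p) hk
  set S : ℚ_[p] := ∑ a ∈ range p, (a : ℚ_[p]) ^ k
  set Q : ℚ_[p] := ∑ a ∈ range p, (a : ℚ_[p]) ^ (k - 1) * ((c * a / p : ℕ) : ℚ_[p])
  set B : ℚ_[p] := ((bernoulli k : ℚ) : ℚ_[p])
  have hck : ‖(c : ℚ_[p]) ^ k - 1‖ ≤ 1 := by
    have := Padic.norm_int_le_one (p := p) ((c : ℤ) ^ k - 1)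
    push_cast at this
    exact this
  have h3 : (p : ℚ_[p]) * (((c : ℚ_[p]) ^ k - 1) * B - k * c ^ (k - 1) * Q) =
      (((c : ℚ_[p]) ^ k - 1) * S - k * p * c ^ (k - 1) * Q) +
        -(((c : ℚ_[p]) ^ k - 1) * (S - p * B)) := by
    ring
  have h4 : ‖(p : ℚ_[p]) * (((c : ℚ_[p]) ^ k - 1) * B - k * c ^ (k - 1) * Q)‖ ≤
      (p : ℝ) ^ (-2 : ℤ) := by
    rw [h3]
    refine (IsUltrametricDist.norm_add_le_max _ _).trans (max_le h1 ?_)
    · rw [norm_neg, norm_mul]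
      calc _ ≤ 1 * (p : ℝ) ^ (-2 : ℤ) := mul_le_mul hck h2 (norm_nonneg _) zero_le_one
        _ = _ := one_mul _
  rw [norm_mul, Padic.norm_p] at h4
  have hp0 : (0 : ℝ) < p := by exact_mod_cast hp.out.pos
  have hp1 : (1 : ℝ) < p := by exact_mod_cast hp.out.one_lt
  have h5 : ‖((c : ℚ_[p]) ^ k - 1) * B - k * c ^ (k - 1) * Q‖ ≤ (p : ℝ)⁻¹ := by
    have h6 : (p : ℝ) ^ (-2 : ℤ) = (p : ℝ)⁻¹ * (p : ℝ)⁻¹ := by
      rw [zpow_neg, ← mul_inv]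
      norm_cast
      ring_nf
    rw [h6] at h4
    exact le_of_mul_le_mul_left h4 (inv_pos.mpr hp0)
  exact h5.trans_lt (inv_lt_one_of_one_lt₀ hp1)

/-- A rational number of `p`-adic norm less than `1` has a numerator divisible by `p`. -/
theorem dvd_num_of_norm_lt_one {x : ℚ} (h : ‖(x : ℚ_[p])‖ < 1) : (p : ℤ) ∣ x.num := by
  rw [← Padic.norm_intCast_lt_one_iff]
  have h1 : ((x.num : ℤ) : ℚ_[p]) = (x : ℚ_[p]) * ((x.den : ℕ) : ℚ_[p]) := by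
    have h2 := congrArg (Rat.cast : ℚ → ℚ_[p]) (Rat.mul_den_eq_num x)
    push_cast at h2
    exact h2.symm
  rw [h1, norm_mul]
  have h2 : ‖((x.den : ℕ) : ℚ_[p])‖ ≤ 1 := by
    exact_mod_cast Padic.norm_int_le_one (p := p) ((x.den : ℕ) : ℤ)
  calc _ ≤ ‖(x : ℚ_[p])‖ * 1 := mul_le_mul_of_nonneg_left h2 (norm_nonneg _)
    _ < 1 := by rwa [mul_one]

/-- If `∑_{a < p} a ^ (k - 1) ⌊c a / p⌋ ≡ 0 mod p` and `c ^ k ≢ 1 mod p`, then `p` divides the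
numerator of `B_k`. -/
theorem dvd_num_bernoulli {k c : ℕ} (hk0 : 0 < k) (hk : k + 3 ≤ p) (hc : ¬ p ∣ c)
    (hck : ¬ (p : ℤ) ∣ (c : ℤ) ^ k - 1)
    (h : p ∣ ∑ a ∈ range p, a ^ (k - 1) * (c * a / p)) : (p : ℤ) ∣ (bernoulli k).num := by
  have h1 := voronoi hk0 hk hc
  set B : ℚ_[p] := ((bernoulli k : ℚ) : ℚ_[p]) with hB
  have h2 : ‖∑ a ∈ range p, (a : ℚ_[p]) ^ (k - 1) * ((c * a / p : ℕ) : ℚ_[p])‖ < 1 := by
    have h3 := Padic.norm_natCast_lt_one_iff.mpr h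
    push_cast at h3
    exact_mod_cast h3
  set Q : ℚ_[p] := ∑ a ∈ range p, (a : ℚ_[p]) ^ (k - 1) * ((c * a / p : ℕ) : ℚ_[p])
  have h3 : ‖((k : ℚ_[p]) * c ^ (k - 1)) * Q‖ < 1 := by
    rw [norm_mul]
    have h4 : ‖((k : ℚ_[p]) * c ^ (k - 1))‖ ≤ 1 := by
      have := Padic.norm_int_le_one (p := p) ((k : ℤ) * c ^ (k - 1))
      push_cast at this
      exact this
    calc _ ≤ 1 * ‖Q‖ := mul_le_mul_of_nonneg_right h4 (norm_nonneg _)
      _ < 1 := by rwa [one_mul]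
  have h4 : ‖(c : ℚ_[p]) ^ k - 1‖ = 1 := by
    have h5 := Padic.norm_int_le_one (p := p) ((c : ℤ) ^ k - 1)
    have h6 := mt Padic.norm_intCast_lt_one_iff.mp hck
    push_cast at h5 h6
    exact le_antisymm h5 (not_lt.mp h6)
  refine dvd_num_of_norm_lt_one ?_
  rw [← hB]
  have h5 : ‖((c : ℚ_[p]) ^ k - 1) * B‖ < 1 := by
    have h6 := IsUltrametricDist.norm_add_le_max
      (((c : ℚ_[p]) ^ k - 1) * B - k * c ^ (k - 1) * Q) (k * c ^ (k - 1) * Q)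
    rw [sub_add_cancel] at h6
    exact h6.trans_lt (max_lt h1 h3)
  rwa [norm_mul, h4, one_mul] at h5

end Bern

end Fermat.Agent.Cor.Stick
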