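import Fermat.Agent.Corollaries.Stick.Stickelberger
import Fermat.Agent.Corollaries.Stick.Voronoi

/-!
# Herbrand's theorem

Let `p` be an odd prime and `i` odd, `3 ≤ i ≤ p - 2`.  If the `ω ^ i`-part of the `p`-torsion of the
class group of `ℚ(ζ_p)` is not trivial, then `p` divides the numerator of the Bernoulli number
`B_{p - i}`.  The `ω`-part is trivial.
-/

set_option autoImplicit false

noncomputable section

namespace Fermat.Agent.Cor.Stick

open NumberField Finset Fermat.Agent.Cor.Cat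

universe u

section Cyclo

variable {p : ℕ} [hp : Fact p.Prime] {K : Type u} [Field K] [NumberField K]
  [hcyc : IsCyclotomicExtension {p} ℚ K] {ζ : K}

theorem sum_expo_inv (hζ : IsPrimitiveRoot ζ p) {A : Type*} [AddCommMonoid A] (f : ℕ → A) :
    ∑ σ : K ≃ₐ[ℚ] K, f (expo hζ σ⁻¹) = ∑ a ∈ (range p).erase 0, f a := by
  classical
  have hinj : ∀ σ τ : K ≃ₐ[ℚ] K, expo hζ σ⁻¹ = expo hζ τ⁻¹ → σ = τ := by
    intro σ τ h
    have h1 := congrArg (Nat.cast : ℕ → ZMod p) h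
    rw [natCast_expo, natCast_expo] at h1
    exact inv_injective (IsPrimitiveRoot.autToPow_injective ℚ hζ (Units.ext h1))
  have hmem : ∀ σ : K ≃ₐ[ℚ] K, expo hζ σ⁻¹ ∈ (range p).erase 0 := fun σ => by
    rw [mem_erase, mem_range]
    exact ⟨(expo_pos hζ σ⁻¹).ne', expo_lt hζ σ⁻¹⟩
  have hcard : ((range p).erase 0).card ≤ (univ : Finset (K ≃ₐ[ℚ] K)).card := by
    have : IsGalois ℚ K := IsCyclotomicExtension.isGalois {p} ℚ K
    rw [card_erase_of_mem (mem_range.mpr hp.out.pos), card_range, Finset.card_univ,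
      ← Nat.card_eq_fintype_card, IsGalois.card_aut_eq_finrank,
      IsCyclotomicExtension.finrank K (Polynomial.cyclotomic.irreducible_rat hp.out.pos),
      Nat.totient_prime hp.out]
  refine Finset.sum_bij (fun σ _ => expo hζ σ⁻¹) (fun σ _ => hmem σ) (fun σ _ τ _ h => hinj σ τ h)
    (fun a ha => ?_) fun _ _ => rfl
  obtain ⟨σ, hσ, h⟩ := Finset.surj_on_of_inj_on_of_card_le (s := (univ : Finset (K ≃ₐ[ℚ] K)))
    (fun σ _ => expo hζ σ⁻¹) (fun σ _ => hmem σ) (fun σ τ _ _ h => hinj σ τ h) hcard a ha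
  exact ⟨σ, hσ, h.symm⟩

omit hcyc in
theorem expo_mul_expo_inv (hζ : IsPrimitiveRoot ζ p) (σ : K ≃ₐ[ℚ] K) :
    (expo hζ σ : ZMod p) * (expo hζ σ⁻¹ : ZMod p) = 1 := by
  rw [natCast_expo, natCast_expo, ← Units.val_mul, ← map_mul, mul_inv_cancel, map_one,
    Units.val_one]

/-- There is a number `c` with `c ^ k ≢ 1` for all `0 < k < p - 1`. -/
theorem exists_primitive_root : ∃ c : ℕ, ¬ p ∣ c ∧
    ∀ k : ℕ, 0 < k → k < p - 1 → ¬ (p : ℤ) ∣ (c : ℤ) ^ k - 1 := by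
  obtain ⟨g, hg⟩ := IsCyclic.exists_generator (α := (ZMod p)ˣ)
  have hord : orderOf g = p - 1 := by
    rw [orderOf_eq_card_of_forall_mem_zpowers hg, Nat.card_eq_fintype_card,
      ZMod.card_units_eq_totient, Nat.totient_prime hp.out]
  refine ⟨(g : ZMod p).val, ?_, ?_⟩
  · rw [← ZMod.natCast_eq_zero_iff, ZMod.natCast_zmod_val]
    exact g.ne_zero
  · intro k hk hkp h
    rw [← ZMod.intCast_zmod_eq_zero_iff_dvd] at h
    push_cast at h
    rw [ZMod.natCast_zmod_val, sub_eq_zero, ← Units.val_pow_eq_pow_val, Units.val_eq_one] at h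
    have h1 := orderOf_dvd_of_pow_eq_one h
    rw [hord] at h1
    exact absurd (Nat.le_of_dvd hk h1) (not_le.mpr hkp)

theorem orderOf_eq_of_pow {G : Type*} [CommGroup G] {C : G} (hC1 : C ≠ 1) (hCp : C ^ p = 1) :
    orderOf C = p := orderOf_eq_prime hCp hC1

/-- The consequence of Stickelberger's theorem for an eigenclass. -/
theorem dvd_sum_of_eigen (hp2 : p ≠ 2) (hζ : IsPrimitiveRoot ζ p) {i : ℕ} (hi : i + 1 ≤ p)
    {C : ClassGroup (𝓞 K)} (hC1 : C ≠ 1) (hCp : C ^ p = 1)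
    (hC : ∀ σ : K ≃ₐ[ℚ] K, gal σ C = C ^ (expo hζ σ ^ i)) (c : ℕ) :
    p ∣ ∑ a ∈ range p, a ^ (p - 1 - i) * (c * a / p) := by
  have h1 := stickelberger_floor hp2 hζ c C
  simp_rw [hC, ← pow_mul, Finset.prod_pow_eq_pow_sum] at h1
  have h2 := orderOf_dvd_of_pow_eq_one h1
  rw [orderOf_eq_of_pow hC1 hCp, ← ZMod.natCast_eq_zero_iff] at h2
  rw [← ZMod.natCast_eq_zero_iff]
  push_cast at h2 ⊢
  rw [← h2]
  have h3 : ∀ σ : K ≃ₐ[ℚ] K, (expo hζ σ : ZMod p) ^ i * ((c * expo hζ σ⁻¹ / p : ℕ) : ZMod p) =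
      (expo hζ σ⁻¹ : ZMod p) ^ (p - 1 - i) * ((c * expo hζ σ⁻¹ / p : ℕ) : ZMod p) := by
    intro σ
    congr 1
    have h4 := expo_mul_expo_inv hζ σ
    have h5 : (expo hζ σ⁻¹ : ZMod p) ≠ 0 := right_ne_zero_of_mul_eq_one h4
    have h6 : (expo hζ σ⁻¹ : ZMod p) ^ (p - 1 - i) * (expo hζ σ⁻¹ : ZMod p) ^ i = 1 := by
      rw [← pow_add, Nat.sub_add_cancel (by omega), ZMod.pow_card_sub_one_eq_one h5]
    have h7 : (expo hζ σ : ZMod p) ^ i * (expo hζ σ⁻¹ : ZMod p) ^ i = 1 := by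
      rw [← mul_pow, h4, one_pow]
    exact mul_right_cancel₀ (pow_ne_zero i h5) (h7.trans h6.symm)
  rw [Finset.sum_congr rfl fun σ _ => h3 σ,
    sum_expo_inv hζ (fun a => (a : ZMod p) ^ (p - 1 - i) * ((c * a / p : ℕ) : ZMod p)),
    ← Finset.add_sum_erase (range p) _ (mem_range.mpr hp.out.pos)]
  simp

/-- **Herbrand's theorem** (1932).  Let `p` be an odd prime, `3 ≤ i ≤ p - 2`.  If there is
an ideal class `C ≠ 1` of `ℚ(ζ_p)` with `C ^ p = 1` and `σ_a(C) = C ^ (a ^ i)` for all `a`, then `p`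
divides the numerator of the Bernoulli number `B_{p - i}`.  (For even `i` the conclusion is trivial,
since `B_{p - i} = 0`.) -/
theorem herbrand (hζ : IsPrimitiveRoot ζ p) {i : ℕ} (hi3 : 3 ≤ i)
    (hip : i + 2 ≤ p) {C : ClassGroup (𝓞 K)} (hC1 : C ≠ 1) (hCp : C ^ p = 1)
    (hC : ∀ σ : K ≃ₐ[ℚ] K, gal σ C = C ^ (expo hζ σ ^ i)) :
    (p : ℤ) ∣ (bernoulli (p - i)).num := by
  obtain ⟨c, hc, hck⟩ := exists_primitive_root (p := p)
  refine dvd_num_bernoulli (c := c) (by omega) (by omega) hc (hck _ (by omega) (by omega)) ?_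
  have h := dvd_sum_of_eigen (by omega) hζ (by omega) hC1 hCp hC c
  rwa [show p - 1 - i = p - i - 1 by omega] at h

/-- **The `ω`-part is trivial**: if `C ^ p = 1` and `σ_a(C) = C ^ a` for all `a`, then `C = 1`. -/
theorem eq_one_of_eigen_one (hp2 : p ≠ 2) (hζ : IsPrimitiveRoot ζ p) {C : ClassGroup (𝓞 K)}
    (hCp : C ^ p = 1) (hC : ∀ σ : K ≃ₐ[ℚ] K, gal σ C = C ^ (expo hζ σ)) : C = 1 := by
  by_contra hC1
  have h1 := dvd_sum_of_eigen hp2 hζ (i := 1) (by have := hp.out.two_le; omega) hC1 hCp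
    (by simpa using hC) p
  rw [← ZMod.natCast_eq_zero_iff] at h1
  push_cast at h1
  have h2 : ∀ a ∈ (range p).erase 0, (a : ZMod p) ^ (p - 1 - 1) * ((p * a / p : ℕ) : ZMod p) =
      1 := by
    intro a ha
    rw [mem_erase, mem_range] at ha
    have h3 : (a : ZMod p) ≠ 0 := by
      rw [Ne, ZMod.natCast_eq_zero_iff]
      exact Nat.not_dvd_of_pos_of_lt (Nat.pos_of_ne_zero ha.1) ha.2
    have hp3 : 3 ≤ p := lt_of_le_of_ne hp.out.two_le (Ne.symm hp2)
    rw [Nat.mul_div_cancel_left _ hp.out.pos, ← pow_succ,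
      show p - 1 - 1 + 1 = p - 1 by omega, ZMod.pow_card_sub_one_eq_one h3]
  rw [← Finset.add_sum_erase (range p) _ (mem_range.mpr hp.out.pos), Finset.sum_congr rfl h2,
    Finset.sum_const, card_erase_of_mem (mem_range.mpr hp.out.pos), card_range, nsmul_eq_mul,
    mul_one, mul_zero, Nat.zero_div, Nat.cast_zero, mul_zero, zero_add,
    ZMod.natCast_eq_zero_iff] at h1
  have := hp.out.two_le
  exact absurd (Nat.le_of_dvd (by omega) h1) (by omega)

end Cyclo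

end Fermat.Agent.Cor.Stick
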