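import Fermat.Agent.Corollaries.Cat.Jacobi

/-!
# Jacobi sums and prime ideals of degree one in `ℚ(ζ_p)`

The ideal generated by the Jacobi sum `J(χ, χ ^ b)` of a prime ideal `P` of degree one of `ℚ(ζ_p)`
(Kummer 1847).  This generalises `Cat/Jacobi.lean` (helper21), the case `b = 1`; the lemmas on the
action of the Galois group are taken from there.
-/

set_option autoImplicit false

noncomputable section

namespace Fermat.Agent.Cor.Stick

open NumberField Finset Fermat.Agent.Cor.Cat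

section FF

variable {F : Type*} [Field F] [Fintype F]

theorem sum_mul_pow_eq_zero {m m' : ℕ} (hm : m + m' < Fintype.card F - 1) :
    ∑ x : F, x ^ m * (1 - x) ^ m' = 0 := by
  have h : ∀ x : F, x ^ m * (1 - x) ^ m' =
      ∑ i ∈ range (m' + 1), ((-1) ^ i * (m'.choose i : F)) * x ^ (m + i) := by
    intro x
    rw [show (1 - x) = (-x) + 1 by ring, add_pow, mul_sum]
    refine sum_congr rfl fun i _ => ?_
    rw [one_pow, mul_one, neg_pow, pow_add]
    ring
  simp_rw [h]
  rw [sum_comm]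
  refine sum_eq_zero fun i hi => ?_
  rw [mem_range] at hi
  rw [← mul_sum, FiniteField.sum_pow_lt_card_sub_one _ _ (by omega), mul_zero]

variable {O : Type*} [CommRing O]

theorem apply_jacobiSum_eq_zero {r : O →+* F} {ψ φ : MulChar F O} {s : O →+* O} {m m' : ℕ}
    (hψ : ∀ x, r (s (ψ x)) = x ^ m) (hφ : ∀ x, r (s (φ x)) = x ^ m')
    (hlt : m + m' < Fintype.card F - 1) : r (s (jacobiSum ψ φ)) = 0 := by
  rw [jacobiSum, map_sum, map_sum, ← sum_mul_pow_eq_zero hlt]
  refine sum_congr rfl fun x _ => ?_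
  rw [map_mul, map_mul, hψ, hφ]

end FF

section Cyclo

variable {p : ℕ} [hp : Fact p.Prime] {K : Type*} [Field K] [NumberField K]
  [IsCyclotomicExtension {p} ℚ K] {ζ : K}

/-- The automorphisms `σ_a⁻¹` with `a + (b a mod p) > p`. -/
def tset (hζ : IsPrimitiveRoot ζ p) (b : ℕ) : Finset (K ≃ₐ[ℚ] K) :=
  univ.filter fun σ => p < expo hζ σ⁻¹ + b * expo hζ σ⁻¹ % p

omit [IsCyclotomicExtension {p} ℚ K] in
theorem mem_tset {hζ : IsPrimitiveRoot ζ p} {b : ℕ} {σ : K ≃ₐ[ℚ] K} :
    σ ∈ tset hζ b ↔ p < expo hζ σ⁻¹ + b * expo hζ σ⁻¹ % p := by simp [tset]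

/-- The complement of `tset`. -/
def tset' (hζ : IsPrimitiveRoot ζ p) (b : ℕ) : Finset (K ≃ₐ[ℚ] K) :=
  univ.filter fun σ => ¬ p < expo hζ σ⁻¹ + b * expo hζ σ⁻¹ % p

omit [IsCyclotomicExtension {p} ℚ K] in
theorem mem_tset' {hζ : IsPrimitiveRoot ζ p} {b : ℕ} {σ : K ≃ₐ[ℚ] K} :
    σ ∈ tset' hζ b ↔ σ ∉ tset hζ b := by simp [tset, tset']

section Prime

variable {P : Ideal (𝓞 K)} {F : Type*} [Field F] [Fintype F] {r : 𝓞 K →+* F}

/-- **The ideal of a Jacobi sum**: for a prime `P` of degree one, not above `p`, the product of the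
`σ_a⁻¹ P` over the `a` with `a + (b a mod p) > p` is generated by a Jacobi sum, and so is the
product over the other `a`. -/
theorem exists_span {b : ℕ} (hb : ¬ p ∣ b) (hb' : ¬ p ∣ b + 1) (hζ : IsPrimitiveRoot ζ p)
    (hP : P.IsPrime) (hN : (Ideal.absNorm P).Prime) (hNp : Ideal.absNorm P ≠ p)
    (hker : ∀ x, r x = 0 ↔ x ∈ P) (hcard : Fintype.card F = Ideal.absNorm P) :
    (∃ α : 𝓞 K, ∏ σ ∈ tset hζ b, P.map (act σ) = Ideal.span {α}) ∧
      ∃ β : 𝓞 K, ∏ σ ∈ tset' hζ b, P.map (act σ) = Ideal.span {β} := by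
  classical
  have hb0 : b ≠ 0 := by
    rintro rfl
    exact hb (dvd_zero p)
  have hr : IsPrimitiveRoot (r hζ.toInteger) p :=
    isPrimitiveRoot_apply hζ (hcard ▸ hN) (hcard ▸ hNp)
  have hz := hζ.toInteger_isPrimitiveRoot
  have hq : 1 < Fintype.card F := Fintype.one_lt_card
  obtain ⟨k, hk⟩ : p ∣ Fintype.card F - 1 := by
    refine hr.dvd_of_pow_eq_one _ (FiniteField.pow_card_sub_one_eq_one _ ?_)
    exact hr.ne_zero hp.out.ne_zero
  have hk0 : 0 < k := by
    rcases Nat.eq_zero_or_pos k with h | h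
    · rw [h, mul_zero] at hk; omega
    · exact h
  obtain ⟨χ, hχ, hrχ⟩ := exists_mulChar hk0 hk hp.out.pos hz.pow_eq_one hr
  have hp1 : 1 < p := hp.out.one_lt
  have hfer : ∀ x : F, x ≠ 0 → x ^ (k * p) = 1 := fun x hx => by
    rw [mul_comm, ← hk, FiniteField.pow_card_sub_one_eq_one _ hx]
  -- the values under the automorphisms
  have hactχ : ∀ (σ : K ≃ₐ[ℚ] K) (x : F), act σ (χ x) = χ x ^ expo hζ σ := by
    intro σ x
    rcases eq_or_ne x 0 with rfl | hx
    · rw [MulChar.map_zero, map_zero, zero_pow (expo_pos hζ σ).ne']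
    · obtain ⟨j, hj⟩ := hχ x hx
      rw [hj, map_pow, act_toInteger, ← pow_mul, ← pow_mul, mul_comm]
  have hv1 : ∀ (σ : K ≃ₐ[ℚ] K) (x : F), r (act σ (χ x)) = x ^ (k * expo hζ σ) := by
    intro σ x
    rw [hactχ, map_pow, hrχ, pow_mul]
  have hv2 : ∀ (σ : K ≃ₐ[ℚ] K) (x : F), r (act σ ((χ ^ b) x)) =
      x ^ (k * (b * expo hζ σ % p)) := by
    intro σ x
    rw [MulChar.pow_apply' _ hb0, map_pow, map_pow, hv1]
    rcases eq_or_ne x 0 with rfl | hx
    · rw [zero_pow (Nat.mul_pos hk0 (expo_pos hζ σ)).ne', zero_pow hb0, zero_pow]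
      refine (Nat.mul_pos hk0 (Nat.pos_of_ne_zero fun h => ?_)).ne'
      rcases hp.out.dvd_mul.mp (Nat.dvd_of_mod_eq_zero h) with h1 | h1
      · exact hb h1
      · exact absurd (Nat.le_of_dvd (expo_pos hζ σ) h1) (not_le.mpr (expo_lt hζ σ))
    · rw [← pow_mul]
      conv_lhs => rw [show k * expo hζ σ * b = k * (b * expo hζ σ % p) +
        k * p * (b * expo hζ σ / p) by
          conv_lhs => rw [mul_assoc, mul_comm (expo hζ σ) b, ← Nat.mod_add_div (b * expo hζ σ) p]
          ring]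
      rw [pow_add, pow_mul x (k * p), hfer x hx, one_pow, mul_one]
  have hv3 : ∀ (σ : K ≃ₐ[ℚ] K) (x : F), r (act σ (χ⁻¹ x)) = x ^ (k * (p - expo hζ σ)) := by
    intro σ x
    have hlt := expo_lt hζ σ
    have hpos := expo_pos hζ σ
    rw [MulChar.inv_apply', hv1]
    generalize expo hζ σ = a at hlt hpos
    rcases eq_or_ne x 0 with rfl | hx
    · rw [inv_zero, zero_pow (Nat.mul_pos hk0 hpos).ne', zero_pow]
      exact (Nat.mul_pos hk0 (by omega)).ne'
    · rw [inv_pow]
      apply inv_eq_of_mul_eq_one_left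
      rw [← pow_add, ← mul_add, Nat.sub_add_cancel hlt.le]
      exact hfer x hx
  have hv4 : ∀ (σ : K ≃ₐ[ℚ] K) (x : F), r (act σ ((χ⁻¹ ^ b) x)) =
      x ^ (k * (p - b * expo hζ σ % p)) := by
    intro σ x
    have hlt : b * expo hζ σ % p < p := Nat.mod_lt _ hp.out.pos
    rcases eq_or_ne x 0 with rfl | hx
    · rw [MulChar.pow_apply' _ hb0, MulChar.map_zero, zero_pow hb0, map_zero, map_zero, zero_pow]
      exact (Nat.mul_pos hk0 (by omega)).ne'
    · rw [inv_pow, MulChar.inv_apply', hv2, inv_pow]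
      apply inv_eq_of_mul_eq_one_left
      rw [← pow_add, ← mul_add, Nat.sub_add_cancel hlt.le]
      exact hfer x hx
  -- the product of the two Jacobi sums
  set α : 𝓞 K := jacobiSum χ⁻¹ (χ⁻¹ ^ b) with hα
  set β : 𝓞 K := jacobiSum χ (χ ^ b) with hβ
  have hone : ∀ m : ℕ, (∀ x : F, x ≠ 0 → χ x ^ m = 1) → p ∣ m := by
    intro m hm
    have h1 : ∀ x : Fˣ, x ^ (k * m) = 1 := by
      intro x
      have := congrArg r (hm x x.ne_zero)
      rw [map_pow, hrχ, map_one, ← pow_mul] at this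
      exact Units.ext (by push_cast; exact this)
    have h2 := (FiniteField.forall_pow_eq_one_iff F (k * m)).mp h1
    rw [hk, mul_comm] at h2
    exact Nat.dvd_of_mul_dvd_mul_left hk0 h2
  have hprod : α * β = (Ideal.absNorm P : ℕ) := by
    apply FaithfulSMul.algebraMap_injective (𝓞 K) K
    have hinj := FaithfulSMul.algebraMap_injective (𝓞 K) K
    rw [map_mul, hα, hβ, ← jacobiSum_ringHomComp, ← jacobiSum_ringHomComp, inv_pow,
      ← MulChar.ringHomComp_inv, ← MulChar.ringHomComp_inv, mul_comm, map_natCast, ← hcard]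
    refine jacobiSum_mul_jacobiSum_inv ?_ ?_ ?_ ?_
    · rw [ringChar.eq_zero]
      exact (CharP.ringChar_ne_zero_of_finite F).symm
    · intro h
      have h1 := hone 1 fun x hx => by
        have := DFunLike.congr_fun h x
        rw [MulChar.ringHomComp_apply, MulChar.one_apply (isUnit_iff_ne_zero.mpr hx)] at this
        rw [pow_one]
        exact hinj (by rw [this, map_one])
      exact hp.out.one_lt.ne' (Nat.dvd_one.mp h1)
    · intro h
      refine hb (hone b fun x hx => ?_)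
      have := DFunLike.congr_fun h x
      rw [MulChar.ringHomComp_apply, MulChar.one_apply (isUnit_iff_ne_zero.mpr hx),
        MulChar.pow_apply' _ hb0] at this
      exact hinj (by rw [this, map_one])
    · intro h
      refine hb' (hone (b + 1) fun x hx => ?_)
      have := DFunLike.congr_fun h x
      rw [MulChar.mul_apply, MulChar.ringHomComp_apply, MulChar.ringHomComp_apply,
        MulChar.one_apply (isUnit_iff_ne_zero.mpr hx), ← map_mul, MulChar.pow_apply' _ hb0,
        ← pow_succ'] at this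
      exact hinj (by rw [this, map_one])
  -- the conjugates lie in `P`
  have hmemα : ∀ σ ∈ tset hζ b, act σ⁻¹ α ∈ P := by
    intro σ hσ
    rw [mem_tset] at hσ
    have hlt := expo_lt hζ σ⁻¹
    have hmod : b * expo hζ σ⁻¹ % p < p := Nat.mod_lt _ hp.out.pos
    rw [← hker]
    refine apply_jacobiSum_eq_zero (hv3 σ⁻¹) (hv4 σ⁻¹) ?_
    rw [hk, ← mul_add, mul_comm p k]
    exact Nat.mul_lt_mul_of_pos_left (by omega) hk0
  have hmemβ : ∀ σ ∉ tset hζ b, act σ⁻¹ β ∈ P := by
    intro σ hσ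
    rw [mem_tset, not_lt] at hσ
    have hlt := expo_lt hζ σ⁻¹
    have hpos := expo_pos hζ σ⁻¹
    have hne : expo hζ σ⁻¹ + b * expo hζ σ⁻¹ % p ≠ p := by
      intro h
      have h1 : p ∣ (b + 1) * expo hζ σ⁻¹ := by
        have h2 : (b + 1) * expo hζ σ⁻¹ = p + p * (b * expo hζ σ⁻¹ / p) := by
          conv_lhs => rw [add_mul, one_mul, ← Nat.mod_add_div (b * expo hζ σ⁻¹) p]
          omega
        rw [h2]
        exact dvd_add dvd_rfl (dvd_mul_right _ _)
      rcases hp.out.dvd_mul.mp h1 with h2 | h2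
      · exact hb' h2
      · exact absurd (Nat.le_of_dvd hpos h2) (not_le.mpr hlt)
    rw [← hker]
    refine apply_jacobiSum_eq_zero (hv1 σ⁻¹) (hv2 σ⁻¹) ?_
    rw [hk, ← mul_add, mul_comm p k]
    exact Nat.mul_lt_mul_of_pos_left (by omega) hk0
  -- divisibility
  have hcop : ∀ σ τ : K ≃ₐ[ℚ] K, σ ≠ τ → IsCoprime (P.map (act σ)) (P.map (act τ)) := by
    intro σ τ hστ
    have hmax : ∀ σ : K ≃ₐ[ℚ] K, (P.map (act σ)).IsMaximal := fun σ => by
      refine (isPrime_map_act σ hP).isMaximal fun h => hN.ne_zero ?_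
      rw [← absNorm_map_act σ P, h, Ideal.absNorm_bot]
    have := hmax σ
    have := hmax τ
    exact Ideal.isCoprime_of_isMaximal fun h => hστ (map_act_injective hζ hN hr hker h)
  have hA : ∏ σ ∈ tset hζ b, P.map (act σ) ∣ Ideal.span {α} := by
    refine Finset.prod_dvd_of_coprime (fun σ _ τ _ h => hcop σ τ h) fun σ hσ => ?_
    rw [Ideal.dvd_span_singleton]
    exact mem_map_act (hmemα σ hσ)
  have hB : ∏ σ ∈ tset' hζ b, P.map (act σ) ∣ Ideal.span {β} := by
    refine Finset.prod_dvd_of_coprime (fun σ _ τ _ h => hcop σ τ h) fun σ hσ => ?_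
    rw [Ideal.dvd_span_singleton]
    exact mem_map_act (hmemβ σ (mem_tset'.mp hσ))
  obtain ⟨I, hI⟩ := hA
  obtain ⟨J, hJ⟩ := hB
  have hnorm : Ideal.absNorm (∏ σ ∈ tset hζ b, P.map (act σ)) *
      Ideal.absNorm (∏ σ ∈ tset' hζ b, P.map (act σ)) =
      Ideal.absNorm P ^ Module.finrank ℚ K := by
    have : IsGalois ℚ K := IsCyclotomicExtension.isGalois {p} ℚ K
    rw [map_prod, map_prod]
    simp only [absNorm_map_act, prod_const]
    rw [← pow_add, ← IsGalois.card_aut_eq_finrank, Nat.card_eq_fintype_card]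
    congr 1
    rw [← Finset.card_univ, ← Finset.card_filter_add_card_filter_not (s := univ)
      (fun σ : K ≃ₐ[ℚ] K => p < expo hζ σ⁻¹ + b * expo hζ σ⁻¹ % p)]
    rfl
  have hnorm2 : Ideal.absNorm (Ideal.span {α}) * Ideal.absNorm (Ideal.span {β}) =
      Ideal.absNorm P ^ Module.finrank ℚ K := by
    rw [← map_mul, Ideal.span_singleton_mul_span_singleton, hprod, Ideal.absNorm_span_natCast,
      RingOfIntegers.rank]
  rw [hI, hJ, map_mul, map_mul, mul_mul_mul_comm, hnorm] at hnorm2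
  have h1 : Ideal.absNorm I * Ideal.absNorm J = 1 :=
    Nat.eq_of_mul_eq_mul_left (pow_pos hN.pos _) (by rw [hnorm2, mul_one])
  have h2 : I = ⊤ := Ideal.absNorm_eq_one_iff.mp (Nat.eq_one_of_mul_eq_one_right h1)
  have h3 : J = ⊤ := Ideal.absNorm_eq_one_iff.mp (Nat.eq_one_of_mul_eq_one_left h1)
  exact ⟨⟨α, by rw [hI, h2, Ideal.mul_top]⟩, ⟨β, by rw [hJ, h3, Ideal.mul_top]⟩⟩

end Prime

end Cyclo

end Fermat.Agent.Cor.Stick
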