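import Fermat.Prelude.Def_ClassGroup_GaloisAction
import Fermat.Agent.Corollaries.Stick.Jacobi
import Fermat.Agent.Corollaries.ZetaK.DegOne

/-!
# Stickelberger's theorem for `ℚ(ζ_p)`

Every element of the Stickelberger ideal annihilates the class group of `ℚ(ζ_p)`.
-/

set_option autoImplicit false

noncomputable section

namespace Fermat.Agent.Cor.Stick

open NumberField Finset Fermat.Agent.Cor.Cat
open scoped nonZeroDivisors

universe u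

section Action

variable {K : Type u} [Field K] [NumberField K]

/-- The action of an automorphism on the ideal classes. -/
def gal (σ : K ≃ₐ[ℚ] K) : ClassGroup (𝓞 K) ≃* ClassGroup (𝓞 K) :=
  ClassGroup.mulEquiv (RingOfIntegers.mapRingEquiv σ.toRingEquiv)

theorem gal_mk0 (σ : K ≃ₐ[ℚ] K) (I : (Ideal (𝓞 K))⁰) :
    gal σ (ClassGroup.mk0 I) =
      ClassGroup.mk0 (Ideal.mapNonZero (RingOfIntegers.mapRingEquiv σ.toRingEquiv) I) :=
  ClassGroup.mulEquiv_mk0 _ I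

theorem gal_mul (σ τ : K ≃ₐ[ℚ] K) (C : ClassGroup (𝓞 K)) : gal (σ * τ) C = gal σ (gal τ C) :=
  ClassGroup.mulEquiv_trans_apply (RingOfIntegers.mapRingEquiv τ.toRingEquiv)
    (RingOfIntegers.mapRingEquiv σ.toRingEquiv) C

theorem gal_one (C : ClassGroup (𝓞 K)) : gal (1 : K ≃ₐ[ℚ] K) C = C :=
  ClassGroup.mulEquiv_refl_apply C

theorem prod_gal_mk0 (T : Finset (K ≃ₐ[ℚ] K)) (I : (Ideal (𝓞 K))⁰) {α : 𝓞 K}
    (h : ∏ σ ∈ T, (I : Ideal (𝓞 K)).map (act σ) = Ideal.span {α}) :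
    ∏ σ ∈ T, gal σ (ClassGroup.mk0 I) = 1 := by
  simp_rw [gal_mk0]
  rw [← map_prod, ClassGroup.mk0_eq_one_iff]
  have h1 : ((∏ σ ∈ T, Ideal.mapNonZero (RingOfIntegers.mapRingEquiv σ.toRingEquiv) I :
      (Ideal (𝓞 K))⁰) : Ideal (𝓞 K)) = Ideal.span {α} := by
    rw [← h, Submonoid.coe_finsetProd]
    rfl
  rw [h1]
  exact ⟨⟨α, rfl⟩⟩

end Action

theorem zpow_sum {G ι : Type*} [CommGroup G] (x : G) (s : Finset ι) (f : ι → ℤ) :
    x ^ (∑ i ∈ s, f i) = ∏ i ∈ s, x ^ f i := by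
  classical
  induction s using Finset.induction_on with
  | empty => simp
  | insert a s ha ih => rw [Finset.sum_insert ha, Finset.prod_insert ha, zpow_add, ih]

section Cyclo

variable {p : ℕ} [hp : Fact p.Prime] {K : Type u} [Field K] [NumberField K]
  [IsCyclotomicExtension {p} ℚ K] {ζ : K}

theorem prod_tset {b : ℕ} (hb : ¬ p ∣ b) (hb' : ¬ p ∣ b + 1) (hζ : IsPrimitiveRoot ζ p)
    (C : ClassGroup (𝓞 K)) : ∏ σ ∈ tset hζ b, gal σ C = 1 ∧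
      ∏ σ ∈ tset' hζ b, gal σ C = 1 := by
  obtain ⟨P, rfl, hPn, hPp⟩ := exists_deg_one_in_class C p
  have hP : (P.1 : Ideal (𝓞 K)).IsPrime := Ideal.isPrime_of_prime P.2
  have hcard : Nat.card (𝓞 K ⧸ (P.1 : Ideal (𝓞 K))) = Ideal.absNorm (P.1 : Ideal (𝓞 K)) := by
    rw [Ideal.absNorm_apply, Submodule.cardQuot_apply]
  have : Finite (𝓞 K ⧸ (P.1 : Ideal (𝓞 K))) := Nat.finite_of_card_ne_zero (hcard ▸ hPn.ne_zero)
  have hmax : (P.1 : Ideal (𝓞 K)).IsMaximal := hP.isMaximal fun h => hPn.ne_zero (by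
    rw [h, Ideal.absNorm_bot])
  let _ : Fintype (𝓞 K ⧸ (P.1 : Ideal (𝓞 K))) := Fintype.ofFinite _
  let _ : Field (𝓞 K ⧸ (P.1 : Ideal (𝓞 K))) := Ideal.Quotient.field _
  obtain ⟨⟨α, hα⟩, ⟨β, hβ⟩⟩ := exists_span (r := Ideal.Quotient.mk (P.1 : Ideal (𝓞 K))) hb hb' hζ
    hP hPn hPp.ne' (fun x => Ideal.Quotient.eq_zero_iff_mem)
    (by rw [← hcard, Nat.card_eq_fintype_card])
  exact ⟨prod_gal_mk0 _ P.1 hα, prod_gal_mk0 _ P.1 hβ⟩

/-- The norm element annihilates the class group. -/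
theorem prod_gal (hp2 : p ≠ 2) (hζ : IsPrimitiveRoot ζ p) (C : ClassGroup (𝓞 K)) :
    ∏ σ : K ≃ₐ[ℚ] K, gal σ C = 1 := by
  classical
  have h1 : ¬ p ∣ 1 := hp.out.one_lt.ne' ∘ Nat.dvd_one.mp
  have h2 : ¬ p ∣ 1 + 1 := fun h => hp2 ((Nat.prime_dvd_prime_iff_eq hp.out Nat.prime_two).mp h)
  obtain ⟨h3, h4⟩ := prod_tset h1 h2 hζ C
  rw [← Finset.prod_filter_mul_prod_filter_not univ
    (fun σ : K ≃ₐ[ℚ] K => p < expo hζ σ⁻¹ + 1 * expo hζ σ⁻¹ % p)]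
  have h5 := congrArg₂ (· * ·) h3 h4
  rw [one_mul] at h5
  exact h5

/-- **Stickelberger's theorem**: for every `c` the element `∑ ⌊c a / p⌋ σ_a⁻¹` of the group ring of
the Galois group of `ℚ(ζ_p)` annihilates the class group. -/
theorem stickelberger_floor (hp2 : p ≠ 2) (hζ : IsPrimitiveRoot ζ p) (c : ℕ)
    (C : ClassGroup (𝓞 K)) : ∏ σ : K ≃ₐ[ℚ] K, gal σ C ^ (c * expo hζ σ⁻¹ / p) = 1 := by
  classical
  induction c with
  | zero => simp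
  | succ c ih =>
    have hpos := hp.out.pos
    have hstep : ∀ σ : K ≃ₐ[ℚ] K, (c + 1) * expo hζ σ⁻¹ / p =
        c * expo hζ σ⁻¹ / p + if p ≤ expo hζ σ⁻¹ + c * expo hζ σ⁻¹ % p then 1 else 0 := by
      intro σ
      rw [add_mul, one_mul]
      conv_lhs => rw [← Nat.mod_add_div (c * expo hζ σ⁻¹) p]
      have h1 := expo_lt hζ σ⁻¹
      have h2 : c * expo hζ σ⁻¹ % p < p := Nat.mod_lt _ hpos
      rw [show c * expo hζ σ⁻¹ % p + p * (c * expo hζ σ⁻¹ / p) + expo hζ σ⁻¹ =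
        (expo hζ σ⁻¹ + c * expo hζ σ⁻¹ % p) + p * (c * expo hζ σ⁻¹ / p) by ring,
        Nat.add_mul_div_left _ _ hpos, add_comm]
      congr 1
      split_ifs with h
      · exact Nat.div_eq_of_lt_le (by omega) (by omega)
      · exact Nat.div_eq_of_lt (by omega)
    simp_rw [hstep, pow_add, Finset.prod_mul_distrib, ih, one_mul]
    by_cases h1 : p ∣ c
    · refine Finset.prod_eq_one fun σ _ => ?_
      have h2 : c * expo hζ σ⁻¹ % p = 0 := Nat.mod_eq_zero_of_dvd (h1.mul_right _)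
      rw [h2, add_zero, if_neg (not_le.mpr (expo_lt hζ σ⁻¹)), pow_zero]
    by_cases h2 : p ∣ c + 1
    · rw [← prod_gal hp2 hζ C]
      refine Finset.prod_congr rfl fun σ _ => ?_
      rw [if_pos, pow_one]
      have h3 : p ∣ expo hζ σ⁻¹ + c * expo hζ σ⁻¹ % p := by
        have h4 : p ∣ (c + 1) * expo hζ σ⁻¹ := h2.mul_right _
        have h5 : (c + 1) * expo hζ σ⁻¹ = (expo hζ σ⁻¹ + c * expo hζ σ⁻¹ % p) +
            p * (c * expo hζ σ⁻¹ / p) := by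
          conv_lhs => rw [add_mul, one_mul, ← Nat.mod_add_div (c * expo hζ σ⁻¹) p]
          ring
        rw [h5] at h4
        exact (Nat.dvd_add_left (dvd_mul_right _ _)).mp h4
      exact Nat.le_of_dvd (Nat.add_pos_left (expo_pos hζ σ⁻¹) _) h3
    · rw [← (prod_tset h1 h2 hζ C).1, tset, Finset.prod_filter]
      refine Finset.prod_congr rfl fun σ _ => ?_
      have h3 : expo hζ σ⁻¹ + c * expo hζ σ⁻¹ % p ≠ p := by
        intro h
        have h4 : p ∣ (c + 1) * expo hζ σ⁻¹ := by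
          have h5 : (c + 1) * expo hζ σ⁻¹ = (expo hζ σ⁻¹ + c * expo hζ σ⁻¹ % p) +
              p * (c * expo hζ σ⁻¹ / p) := by
            conv_lhs => rw [add_mul, one_mul, ← Nat.mod_add_div (c * expo hζ σ⁻¹) p]
            ring
          rw [h5, h]
          exact dvd_add dvd_rfl (dvd_mul_right _ _)
        rcases hp.out.dvd_mul.mp h4 with h5 | h5
        · exact h2 h5
        · exact absurd (Nat.le_of_dvd (expo_pos hζ σ⁻¹) h5) (not_le.mpr (expo_lt hζ σ⁻¹))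
      by_cases h : p ≤ expo hζ σ⁻¹ + c * expo hζ σ⁻¹ % p
      · rw [if_pos h, if_pos (lt_of_le_of_ne h h3.symm), pow_one]
      · rw [if_neg h, if_neg (fun h' => h h'.le), pow_zero]

omit [IsCyclotomicExtension {p} ℚ K] in
theorem natCast_expo (hζ : IsPrimitiveRoot ζ p) (σ : K ≃ₐ[ℚ] K) :
    (expo hζ σ : ZMod p) = (hζ.autToPow ℚ σ : ZMod p) := by
  rw [expo, ZMod.natCast_zmod_val]

omit [IsCyclotomicExtension {p} ℚ K] in
theorem expo_mul (hζ : IsPrimitiveRoot ζ p) (σ τ : K ≃ₐ[ℚ] K) :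
    expo hζ (σ * τ) = expo hζ σ * expo hζ τ % p := by
  rw [expo, expo, expo, map_mul, Units.val_mul, ZMod.val_mul]

omit [IsCyclotomicExtension {p} ℚ K] in
theorem expo_one (hζ : IsPrimitiveRoot ζ p) : expo hζ (1 : K ≃ₐ[ℚ] K) = 1 := by
  have : Fact (1 < p) := ⟨hp.out.one_lt⟩
  rw [expo, map_one, Units.val_one, ZMod.val_one]

/-- The element `∑ a σ_a⁻¹` annihilates the class group. -/
theorem prod_gal_pow_expo (hp2 : p ≠ 2) (hζ : IsPrimitiveRoot ζ p) (C : ClassGroup (𝓞 K)) :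
    ∏ σ : K ≃ₐ[ℚ] K, gal σ C ^ expo hζ σ⁻¹ = 1 := by
  rw [← stickelberger_floor hp2 hζ p C]
  refine Finset.prod_congr rfl fun σ _ => ?_
  rw [Nat.mul_div_cancel_left _ hp.out.pos]

/-- **Stickelberger's theorem for `ℚ(ζ_p)`**, `p` an odd prime.  Let
`θ = (1/p) ∑ a σ_a⁻¹ ∈ ℚ[G]` be the Stickelberger element and `β = ∑ n_τ τ ∈ ℤ[G]`.  If `β θ` has
integral coefficients, then `β θ` annihilates the class group.  (The coefficient of `β θ` at `ρ` is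
`(1/p) ∑_τ n_τ a(ρ⁻¹ τ)`, where `σ ζ = ζ ^ a(σ)`, `0 < a(σ) < p`.) -/
theorem stickelberger (hp2 : p ≠ 2) (hζ : IsPrimitiveRoot ζ p) (n : (K ≃ₐ[ℚ] K) → ℤ)
    (hn : ∀ ρ : K ≃ₐ[ℚ] K, (p : ℤ) ∣ ∑ τ, n τ * expo hζ (ρ⁻¹ * τ)) (C : ClassGroup (𝓞 K)) :
    ∏ ρ : K ≃ₐ[ℚ] K, gal ρ C ^ ((∑ τ, n τ * expo hζ (ρ⁻¹ * τ)) / p) = 1 := by
  have hp0 : (p : ℤ) ≠ 0 := by exact_mod_cast hp.out.ne_zero
  obtain ⟨m, hm⟩ := hn 1
  simp only [inv_one, one_mul] at hm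
  have h1 : ∀ ρ : K ≃ₐ[ℚ] K, (∑ τ, n τ * (expo hζ (ρ⁻¹ * τ) : ℤ)) / p =
      m * expo hζ ρ⁻¹ - ∑ τ, n τ * ((expo hζ τ * expo hζ ρ⁻¹ / p : ℕ) : ℤ) := by
    intro ρ
    refine Int.ediv_eq_of_eq_mul_right hp0 ?_
    have h2 : ∀ τ : K ≃ₐ[ℚ] K, (expo hζ (ρ⁻¹ * τ) : ℤ) =
        expo hζ ρ⁻¹ * expo hζ τ - p * ((expo hζ τ * expo hζ ρ⁻¹ / p : ℕ) : ℤ) := by
      intro τ
      rw [expo_mul, mul_comm (expo hζ τ)]
      have h3 := Nat.mod_add_div (expo hζ ρ⁻¹ * expo hζ τ) p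
      have h4 : ((expo hζ ρ⁻¹ * expo hζ τ % p : ℕ) : ℤ) +
          p * ((expo hζ ρ⁻¹ * expo hζ τ / p : ℕ) : ℤ) = expo hζ ρ⁻¹ * expo hζ τ := by
        exact_mod_cast h3
      linear_combination h4
    simp_rw [h2]
    rw [mul_sub, Finset.mul_sum, ← sub_eq_zero]
    have h5 : ∑ τ, n τ * ((expo hζ ρ⁻¹ : ℤ) * expo hζ τ - p *
        ((expo hζ τ * expo hζ ρ⁻¹ / p : ℕ) : ℤ)) = expo hζ ρ⁻¹ * ∑ τ, n τ * (expo hζ τ : ℤ) -
        ∑ τ, (p : ℤ) * (n τ * ((expo hζ τ * expo hζ ρ⁻¹ / p : ℕ) : ℤ)) := by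
      rw [Finset.mul_sum, ← Finset.sum_sub_distrib]
      exact Finset.sum_congr rfl fun τ _ => by ring
    rw [h5, hm]
    ring
  simp_rw [h1, zpow_sub, Finset.prod_mul_distrib]
  have h2 : ∏ ρ : K ≃ₐ[ℚ] K, gal ρ C ^ (m * (expo hζ ρ⁻¹ : ℤ)) = 1 := by
    simp_rw [mul_comm m, zpow_mul, zpow_natCast]
    rw [Finset.prod_zpow, prod_gal_pow_expo hp2 hζ C, one_zpow]
  have h3 : ∏ ρ : K ≃ₐ[ℚ] K, gal ρ C ^ (∑ τ, n τ * ((expo hζ τ * expo hζ ρ⁻¹ / p : ℕ) : ℤ)) =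
      1 := by
    simp_rw [zpow_sum]
    rw [Finset.prod_comm]
    refine Finset.prod_eq_one fun τ _ => ?_
    simp_rw [mul_comm (n τ), zpow_mul, zpow_natCast]
    rw [Finset.prod_zpow, stickelberger_floor hp2 hζ (expo hζ τ) C, one_zpow]
  rw [h2, one_mul, Finset.prod_inv_distrib, h3, inv_one]

end Cyclo

end Fermat.Agent.Cor.Stick
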